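import Fermat.Agent.SS.Abs.WStruct
import Fermat.Agent.SS.Abs.Inj

/-!
# ML / LOWER(A) : `[GR0-a]`  (pure `SS/Abs` language)

`D` a divisor with `p D = div f`, `f ≡ (1, 1)`; `g` a semilinear automorphism compatible with the two reductions and inducing the
identity on the special fibre (an element of the inertia group).  If `g • D - D = div r` and `r` reduces to the pair of constants
`(ρ₁, ρ₂)`, then `ρ₁ = ρ₂`.

Proof.  Multiplication by `r` maps `L(g • D + X)` to `L(D + X)`, so `(ρ₁, ρ₂) * W (g • D) ⊆ W D`.  Both spaces are `M ζ` for the SAME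
gluing datum `ζ` (`exists_zeta`, `zeta_smul` with `φ = 1`); evaluate at a node (`nonempty_S`) on a section which does not vanish there.
-/

set_option autoImplicit false
set_option linter.unusedSectionVars false

open AlgebraicCurve

namespace Fermat.Agent.ML.Low

open Fermat.Agent.RED Fermat.Agent.S24 Fermat.Agent.SS

variable {K F k Fb : Type*} [Field K] [Field F] [Algebra K F] [Field k] [Field Fb] [Algebra k Fb]
  [IsAlgClosed K] [IsAlgClosed k] {x : F} {t : Fb} {T : TwoRed K F k Fb}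

/-- **[GR0-a]** (no hypothesis on `ρ₁`, `ρ₂`) -/
theorem red_const_eq' (𝒩 : NodalData T) (hx : IsSepParam K x) (hb : IsSepParam k t) {p : ℕ}
    (hp : p ≠ 0) {D : Divisor K F} {f : T.O} (h : IsOne T p D f) {g : SemilinearAut K F}
    (hg : IsCompat 𝒩 g 1) (r : T.O) (hr0 : (r : F) ≠ 0)
    (hr : ∀ v : Place K F, (g • D - D) v = v.ord (r : F)) (ρ₁ ρ₂ : k)
    (hred : T.red r = (algebraMap k Fb ρ₁, algebraMap k Fb ρ₂)) : ρ₁ = ρ₂ := by
  obtain ⟨n, hn⟩ := 𝒩.exists_isLarge hx hb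
  obtain ⟨ζ, hζ1, hζ⟩ := 𝒩.exists_zeta hx hb hn hp h
  obtain ⟨ζ', -, hζ'⟩ := 𝒩.exists_zeta hx hb hn hp (h.smul hg)
  have e : ζ' = ζ := funext fun s => by
    rw [𝒩.zeta_smul hb hn hg hζ hζ' s, SemilinearAut.baseAut_one]
    rfl
  obtain ⟨s⟩ := 𝒩.nonempty_S hx hb
  obtain ⟨w, hw, hw0⟩ := 𝒩.exists_mem_M_ne_zero hb hn ζ (a := n) (b := 0) le_rfl
  have h1 : w ∈ (𝒩.W (g • D) n 0 : Set (Fb × Fb)) := by
    rw [hζ' n 0 le_rfl, e]
    exact hw
  obtain ⟨u, hu, rfl⟩ := h1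
  have h2 : T.red (u * r) ∈ 𝒩.M ζ n 0 := by
    rw [← hζ n 0 le_rfl]
    refine ⟨u * r, ?_, rfl⟩
    rcases eq_or_ne (u : F) 0 with hu0 | hu0
    · have : ((u * r : T.O) : F) = 0 := by
        push_cast
        rw [hu0, zero_mul]
      rw [this]
      exact Submodule.zero_mem _
    · have hne : ((u * r : T.O) : F) ≠ 0 := by
        push_cast
        exact mul_ne_zero hu0 hr0
      rw [mem_L_iff_of_ne_zero hne]
      intro v
      have h3 := (mem_L_iff_of_ne_zero hu0).1 hu v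
      have hcast : ((u * r : T.O) : F) = (u : F) * (r : F) := rfl
      rw [hcast, v.ord_mul hu0 hr0, ← hr v]
      simp only [Finsupp.add_apply, Finsupp.sub_apply] at h3 ⊢
      linarith
  rw [map_mul, hred] at h2
  obtain ⟨c, hc0, hc⟩ := hw0 s
  obtain ⟨c', he1, he2⟩ := hw.2.2 s
  obtain ⟨d, hd1, hd2⟩ := h2.2.2 s
  obtain rfl : c' = c := he2.unique hc
  have hd : d = c' * ρ₂ := hd2.unique (hc.mul (HasVal.const ρ₂))
  have hd' : ζ s * d = ζ s * c' * ρ₁ := hd1.unique (he1.mul (HasVal.const ρ₁))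
  have hζ0 : ζ s ≠ 0 := by
    intro h0
    have := hζ1 s
    rw [h0, zero_pow hp] at this
    exact zero_ne_one this
  rw [hd, ← mul_assoc] at hd'
  exact (mul_left_cancel₀ (mul_ne_zero hζ0 hc0) hd').symm

/-- **[GR0-a]**, in the shape of the board (#2760). -/
theorem red_const_eq (𝒩 : NodalData T) (hx : IsSepParam K x) (hb : IsSepParam k t) {p : ℕ}
    (hp : p ≠ 0) {D : Divisor K F} {f : T.O} (h : IsOne T p D f) {g : SemilinearAut K F}
    (hg : IsCompat 𝒩 g 1) (r : T.O) (hr0 : (r : F) ≠ 0)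
    (hr : ∀ v : Place K F, (g • D - D) v = v.ord (r : F)) (ρ₁ ρ₂ : k) (_h₁ : ρ₁ ≠ 0)
    (_h₂ : ρ₂ ≠ 0) (hred : T.red r = (algebraMap k Fb ρ₁, algebraMap k Fb ρ₂)) : ρ₁ = ρ₂ :=
  red_const_eq' 𝒩 hx hb hp h hg r hr0 hr ρ₁ ρ₂ hred

end Fermat.Agent.ML.Low
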