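import Fermat.Agent.ML.Low.Gr0.Main
import Fermat.Agent.ML.Low.SqOf

/-!
# ML / LOWER(A) : `[GR0]` for all contexts, `[SQ]` from `[NODES]` alone
-/

set_option autoImplicit false
set_option linter.unusedSectionVars false

noncomputable section

open AlgebraicCurve ModularCurve

namespace Fermat.Agent.ML.Low

open Fermat.Agent.RIB Fermat.Agent.S36
open Fermat.Agent.RED hiding Kb
open Fermat.Agent.S24 Fermat.Agent.SS
open Fermat.Agent.RED.Cusp (Fb)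

/-- there is at least one node. -/
theorem nodes_ne_zero (C : S36.Ctx) (h49 : 4 ∣ C.M ∨ 9 ∣ C.M) :
    gR Kb (FN (C.M * C.q)) - 2 * gR C.k C.Fb + 1 ≠ 0 := by
  have hxs := RED.RB.isSepParam_jF (C.M * C.q)
  have hbs := RED.Cusp.isSepParam_jb C.M C.k C.q C.hqM
  obtain ⟨𝒩, -, -⟩ := exists_nodalData_compat C.hqM C.A h49 C.hA
  obtain ⟨s⟩ := 𝒩.nonempty_S hxs hbs
  have h1 := 𝒩.card
  intro h0
  have h2 : (Fintype.card 𝒩.S : ℤ) = 0 := h1.trans h0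
  have h3 : Fintype.card 𝒩.S = 0 := by exact_mod_cast h2
  exact (Fintype.card_eq_zero_iff.mp h3).elim s

theorem gr0All : Gr0All := fun C h49 _ hp hpq _ hx =>
  isToric_mem_tor1 (four_or_nine_of_aux h49) hp hpq (nodes_ne_zero C (four_or_nine_of_aux h49)) hx

/-- **[REAL-K0]** -/
theorem real_k0 (C : S36.Ctx) (h49 : Fermat.Agent.RED.aux C.q ∣ C.M) {p : ℕ} (hp : p.Prime)
    (hpq : p ≠ C.q) (n : ℕ)
    (hn : (n : ℤ) = gR Kb (FN (C.M * C.q)) - 2 * gR C.k (Fb C.k C.M) + 1) :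
    p ^ (n - 1) ≤ Nat.card (tor1 C p) :=
  real_k0_of_gr0 C h49 hp hpq (gr0All C h49 p hp hpq) n hn

theorem sq_of_nodes {p : ℕ} [Fact p.Prime] {T : Finset ℕ} {θ : ℕ → ℤ}
    {rbar0 : (AlgebraicClosure ℚ ≃ₐ[ℚ] AlgebraicClosure ℚ) →* Matrix (Fin 2) (Fin 2) (ZMod p)}
    (EC : MCtx p T θ rbar0) (HN : NodesStmt) : SqStmt p T θ :=
  sq_of EC HN gr0All

end Fermat.Agent.ML.Low
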