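import Fermat.Agent.SS.Abs.Main

/-!
# ML / LOWER(A) / `[GR0]` : the core (language of `SS/Abs`)

`T : TwoRed K F k Fb`, `𝒩 : NodalData T` with at least one node, `g` a semilinear automorphism inducing the identity on the
reductions (`IsCompat 𝒩 g 1`), `IsOne T m D f`.  If `r ∈ O₁ ∩ O₂` has divisor `g D - D` and CONSTANT reductions `(ρ₁, ρ₂)` then
`ρ₁ = ρ₂`.

Proof.  `W(D) = M(ζ)`, `W(g D) = M(ζ')` and `ζ' = ζ` (`zeta_smul`).  Multiplication by `r` maps `L(g D + X)` to `L(D + X)`, hence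
`(ρ₁, ρ₂) M(ζ) ⊆ M(ζ)`; evaluate at a node a section which does not vanish there.
-/

set_option autoImplicit false
set_option linter.unusedSectionVars false

open AlgebraicCurve

namespace Fermat.Agent.ML.Low

open Fermat.Agent.RED Fermat.Agent.S24 Fermat.Agent.SS

variable {K F k Fb : Type*} [Field K] [Field F] [Algebra K F] [Field k] [Field Fb] [Algebra k Fb]
  [IsAlgClosed K] [IsAlgClosed k] {x : F} {t : Fb}

variable {T : TwoRed K F k Fb} (𝒩 : NodalData T)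

/-- **[GR0-CORE]** -/
theorem gr0_core (hx : IsSepParam K x) (hb : IsSepParam k t) [Nonempty 𝒩.S] {m : ℕ} (hm : m ≠ 0)
    {D : Divisor K F} {f : T.O} (h : IsOne T m D f) {g : SemilinearAut K F}
    (hg : IsCompat 𝒩 g 1) (r : T.O) (hr0 : (r : F) ≠ 0)
    (hr : ∀ v : Place K F, v.ord (r : F) = (g • D) v - D v) {ρ₁ ρ₂ : k}
    (hred : T.red r = (algebraMap k Fb ρ₁, algebraMap k Fb ρ₂)) : ρ₁ = ρ₂ := by
  obtain ⟨n, hn⟩ := 𝒩.exists_isLarge hx hb
  obtain ⟨ζ, hζ, hW⟩ := 𝒩.exists_zeta hx hb hn hm h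
  have hζ0 : ∀ s, ζ s ≠ 0 := by
    intro s h0
    have := hζ s
    rw [h0, zero_pow hm] at this
    exact zero_ne_one this
  obtain ⟨ζg, -, hWg⟩ := 𝒩.exists_zeta hx hb hn hm (h.smul hg)
  have hζg : ζg = ζ := by
    funext s
    rw [𝒩.zeta_smul hb hn hg hW hWg s]
    rfl
  rw [hζg] at hWg
  obtain ⟨w, hw, hw0⟩ := 𝒩.exists_mem_M_ne_zero hb hn ζ (a := n) (b := 0) (le_refl _)
  have h1 : w ∈ (𝒩.W (g • D) n 0 : Set (Fb × Fb)) := by rw [hWg n 0 (le_refl _)]; exact hw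
  obtain ⟨u, hu, rfl⟩ := h1
  have h2 : T.red (u * r) ∈ 𝒩.M ζ n 0 := by
    rw [← hW n 0 (le_refl _)]
    refine ⟨u * r, ?_, rfl⟩
    rcases eq_or_ne (u : F) 0 with hu0 | hu0
    · have : ((u * r : T.O) : F) = 0 := by
        show (u : F) * (r : F) = 0
        rw [hu0, zero_mul]
      rw [this]
      exact Submodule.zero_mem _
    · have hne : ((u * r : T.O) : F) ≠ 0 := mul_ne_zero hu0 hr0
      rw [mem_L_iff_of_ne_zero hne]
      intro v
      have h3 := (mem_L_iff_of_ne_zero hu0).1 hu v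
      have hcast : ((u * r : T.O) : F) = (u : F) * (r : F) := rfl
      rw [hcast, v.ord_mul hu0 hr0, hr v, Finsupp.add_apply]
      rw [Finsupp.add_apply] at h3
      linarith
  obtain ⟨s⟩ := (inferInstance : Nonempty 𝒩.S)
  obtain ⟨c, hc0, hc⟩ := hw0 s
  obtain ⟨e, he1, he2⟩ := hw.2.2 s
  obtain ⟨d, hd1, hd2⟩ := h2.2.2 s
  have hec : e = c := he2.unique hc
  subst hec
  rw [map_mul, hred] at hd1 hd2
  have k1 : HasVal (𝒩.x₁ s) ((T.red u).1 * algebraMap k Fb ρ₁) (ζ s * e * ρ₁) :=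
    he1.mul (HasVal.const ρ₁)
  have k2 : HasVal (𝒩.x₂ s) ((T.red u).2 * algebraMap k Fb ρ₂) (e * ρ₂) :=
    he2.mul (HasVal.const ρ₂)
  have e2 : d = e * ρ₂ := hd2.unique k2
  have e1 : ζ s * d = ζ s * e * ρ₁ := hd1.unique k1
  rw [e2, ← mul_assoc] at e1
  exact (mul_left_cancel₀ (mul_ne_zero (hζ0 s) hc0) e1).symm

/-- **[GR0-CONST]** : `div H = D - D₀`, `g D₀ = D₀`, `H` a unit on the first component, `c H` a unit on the second one
⟹ `c / g c` reduces to `1`. -/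
theorem gr0_const (hx : IsSepParam K x) (hb : IsSepParam k t) [Nonempty 𝒩.S] {m : ℕ} (hm : m ≠ 0)
    {D D₀ : Divisor K F} {f : T.O} (h : IsOne T m D f) {g : SemilinearAut K F}
    (hg : IsCompat 𝒩 g 1) (hD₀ : g • D₀ = D₀) {H : F}
    (hH : ∀ v : Place K F, v.ord H = D v - D₀ v)
    (h₁ : H ∈ T.R₁.O) (hr₁ : T.R₁.red ⟨H, h₁⟩ ≠ 0) {c : K} (hc : c ≠ 0)
    (h₂ : algebraMap K F c * H ∈ T.R₂.O) (hr₂ : T.R₂.red ⟨_, h₂⟩ ≠ 0) :
    ∃ hmem : algebraMap K F (c * (SemilinearAut.baseAut g c)⁻¹) ∈ T.R₂.O,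
      T.R₂.red ⟨_, hmem⟩ = 1 := by
  have hH0 : H ≠ 0 := by
    rintro rfl
    exact hr₁ (map_zero T.R₁.red)
  set gc := SemilinearAut.baseAut g c with hgc
  have hgc0 : gc ≠ 0 := by
    rw [hgc, Ne, map_eq_zero_iff _ (SemilinearAut.baseAut g).injective]
    exact hc
  have hgH0 : g • H ≠ 0 := by
    rw [SemilinearAut.smul_def]
    exact (map_ne_zero_iff _ (SemilinearAut.toRingAut g).injective).2 hH0
  -- the constant
  have hmem : algebraMap K F (c * gc⁻¹) ∈ T.R₂.O := by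
    have := hg.unit c⁻¹ (inv_ne_zero hc)
    rw [map_inv₀, inv_inv, mul_comm] at this
    exact (T.const_mem _).1 this
  obtain ⟨a, ha⟩ := T.R₂.red_const _ hmem
  -- `r = g H / H`
  let u₁ : T.R₁.O := ⟨H, h₁⟩
  let u₂ : T.R₂.O := ⟨algebraMap K F c * H, h₂⟩
  let E₁ : T.R₁.O := ⟨g • (u₁ : F), hg.mem₁ u₁⟩ * ⟨(u₁ : F)⁻¹, T.R₁.inv_mem_of_red_ne_zero hr₁⟩
  let E₂ : T.R₂.O := ⟨g • (u₂ : F), hg.mem₂ u₂⟩ * ⟨(u₂ : F)⁻¹, T.R₂.inv_mem_of_red_ne_zero hr₂⟩ *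
    ⟨_, hmem⟩
  have hE₁ : (E₁ : F) = (g • H) * H⁻¹ := rfl
  have hE₂ : (E₂ : F) = (g • H) * H⁻¹ := by
    show g • (algebraMap K F c * H) * (algebraMap K F c * H)⁻¹ * algebraMap K F (c * gc⁻¹) = _
    rw [smul_mul', SemilinearAut.smul_algebraMap, map_mul, map_inv₀]
    have h1 : algebraMap K F c ≠ 0 := by rwa [Ne, map_eq_zero]
    have h2 : algebraMap K F gc ≠ 0 := by rwa [Ne, map_eq_zero]
    rw [← hgc]
    field_simp
  have hE₁red : T.R₁.red E₁ = 1 := by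
    show T.R₁.red (_ * _) = _
    rw [map_mul, hg.red₁ u₁, one_smul, T.R₁.red_inv hr₁, mul_inv_cancel₀ hr₁]
  have hE₂red : T.R₂.red E₂ = algebraMap k Fb a := by
    show T.R₂.red (_ * _ * _) = _
    rw [map_mul, map_mul, hg.red₂ u₂, one_smul, T.R₂.red_inv hr₂, mul_inv_cancel₀ hr₂, one_mul, ha]
  let r : T.O := ⟨(g • H) * H⁻¹, hE₁ ▸ E₁.2, hE₂ ▸ E₂.2⟩
  have hred : T.red r = (algebraMap k Fb 1, algebraMap k Fb a) := by
    apply Prod.ext
    · rw [T.red_fst, map_one, ← hE₁red]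
      exact congrArg T.R₁.red (Subtype.ext hE₁.symm)
    · rw [T.red_snd]
      show _ = algebraMap k Fb a
      rw [← hE₂red]
      exact congrArg T.R₂.red (Subtype.ext hE₂.symm)
  have hord : ∀ v : Place K F, v.ord (r : F) = (g • D) v - D v := by
    intro v
    show v.ord ((g • H) * H⁻¹) = _
    have h2 := SemilinearAut.ord_smul g (g⁻¹ • v) H
    rw [smul_inv_smul] at h2
    have h3 : D₀ (g⁻¹ • v) = D₀ v := by
      rw [← SemilinearAut.divisor_smul_apply, hD₀]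
    rw [v.ord_mul hgH0 (inv_ne_zero hH0), Place.ord_inv, h2, hH, hH,
      SemilinearAut.divisor_smul_apply, h3]
    ring
  have := gr0_core 𝒩 hx hb hm h hg r (mul_ne_zero hgH0 (inv_ne_zero hH0)) hord hred
  refine ⟨hmem, ?_⟩
  rw [ha, ← this, map_one]

end Fermat.Agent.ML.Low
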