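import Fermat.Agent.ML.Low.Tor1
import Fermat.Agent.ML.Low.RK.Approx
import Fermat.Agent.RIB.Ctrl.Kap.Dict

/-!
# ML / LOWER(A) / `[GR0]` : normalisation over `K = ℚbar ^ I_A`

* `mem_tor1_of_redsTo_pow` : a `K`-rational Kummer function whose two reductions are `m`-th powers (in `C.Fb`) gives a class of `tor1`;
* `eq_one_of_pow_of_residue` : the reduction is injective on the `p`-th roots of unity (`p ≠ q`);
* `dvd_of_pow_eq_K` : `c ∈ K`, `c ^ p = q ^ a` ⟹ `p ∣ a`.
-/

set_option autoImplicit false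
set_option linter.unusedSectionVars false

noncomputable section

open AlgebraicCurve ModularCurve

namespace Fermat.Agent.ML.Low

open Fermat.Agent.RIB Fermat.Agent.S36 Fermat.Agent.S24 Fermat.Agent.RED.Gauss

variable {C : S36.Ctx} {m : ℕ}

/-- the last step of `[GR0]` (= the first half of `RIB.kap_ker`, at level `M q`). -/
theorem mem_tor1_of_redsTo_pow {x : JZero (C.M * C.q)} {g : C.F'}
    (hk : Kum m x (embF0 C.A (C.M * C.q) g)) (w : Fin 2 → C.Fb) (hw0 : ∀ j, w j ≠ 0)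
    (hred : ∀ j, RedsTo C.π (C.e2 j g) ((w j : LaurentSeries C.k) ^ m)) : x ∈ tor1 C m := by
  obtain ⟨V, hV⟩ := approx2_redsTo C w
  have hw0' : ∀ j, (w j : LaurentSeries C.k) ≠ 0 := fun j h0 => hw0 j (Subtype.ext h0)
  have hV0 : V ≠ 0 := by
    rintro rfl
    have := (hV 0).unique (by rw [map_zero]; exact redsTo_zero)
    exact hw0' 0 this
  refine ⟨g * (V⁻¹) ^ m, ?_, fun j => ?_⟩
  · have := hk.of_eq_mul_pow (g' := g * (V⁻¹) ^ m) (y := V⁻¹) (c := 1) (a := 1) one_ne_zero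
      (inv_ne_zero hV0) (by rw [map_one, one_mul, pow_one])
    rwa [one_smul] at this
  · have h1 : RedsTo C.π (C.e2 j (g * (V⁻¹) ^ m - 1)) 0 := by
      have h2 := ((hred j).mul (((hV j).inv (hw0' j)).pow m)).sub (redsTo_one (π := C.π))
      rw [← mul_pow, mul_inv_cancel₀ (hw0' j), one_pow, sub_self] at h2
      rw [map_sub, map_mul, map_pow, map_inv₀, map_one]
      exact h2
    exact val2_lt_one_of_redsTo C j h1

/-- the reduction is injective on the `p`-th roots of unity. -/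
theorem eq_one_of_pow_of_residue {p : ℕ} (hpk : (p : C.k) ≠ 0) {z : C.A} (hz : z ^ p = 1)
    (h1 : C.π z = 1) : z = 1 := by
  by_contra hne
  have h2 : (z - 1) * ∑ i ∈ Finset.range p, z ^ i = 0 := by
    rw [mul_comm, geom_sum_mul, hz, sub_self]
  have h3 : ∑ i ∈ Finset.range p, z ^ i = 0 :=
    (mul_eq_zero.1 h2).resolve_left (sub_ne_zero.2 hne)
  have h4 := congrArg C.π h3
  rw [map_sum, map_zero] at h4
  simp only [map_pow, h1, one_pow, Finset.sum_const, Finset.card_range, nsmul_eq_mul, mul_one] at h4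
  exact hpk h4

/-- `K` is discretely valued with uniformiser `q`. -/
theorem dvd_of_pow_eq_K {p : ℕ} (hp : p ≠ 0) {c : C.K} {a : ℤ} (h : c ^ p = (C.q : C.K) ^ a) :
    (p : ℤ) ∣ a := by
  have hq0 : (C.q : C.K) ≠ 0 := Nat.cast_ne_zero.2 C.hq.ne_zero
  have hc0 : c ≠ 0 := by
    rintro rfl
    rw [zero_pow hp] at h
    exact zpow_ne_zero a hq0 h.symm
  have hU := C.unif2 1
  obtain ⟨n, hn⟩ := hU.disc (algebraMap C.K C.F' c) (by simpa using hc0)
  have h1 := congrArg (fun y => (C.O2 1).valuation (algebraMap C.K C.F' y)) h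
  simp only [map_pow, map_zpow₀, map_natCast] at h1
  rw [hn, ← zpow_natCast, ← zpow_mul] at h1
  have h0 : (C.O2 1).valuation (C.q : C.F') ≠ 0 := hU.val_ne_zero
  have h2 : (C.O2 1).valuation (C.q : C.F') ^ (n * (p : ℤ) - a) = 1 := by
    rw [zpow_sub₀ h0, h1, div_self (zpow_ne_zero _ h0)]
  have h3 := hU.zpow_eq_one h2
  exact ⟨n, by linarith⟩

end Fermat.Agent.ML.Low
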