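import Fermat.Agent.ML.Low.Gr0.Core
import Fermat.Agent.ML.Low.Gr0.Norm
import Fermat.Agent.ML.Low.Dict
import Fermat.Agent.SS.Top35.CompatF

/-!
# ML / LOWER(A) / `[GR0]` : the `SS`-toric classes at level `M q` are `K`-rationally toric

`isToric_mem_tor1` : `SS.IsToric (TC C) p x → x ∈ tor1 C p`  (`p ≠ q` prime, rigid level, at least one node).
-/

set_option autoImplicit false
set_option linter.unusedSectionVars false

noncomputable section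

open AlgebraicCurve ModularCurve IsLocalRing

namespace Fermat.Agent.ML.Low

open Fermat.Agent.RIB Fermat.Agent.S36 Fermat.Agent.S24 Fermat.Agent.RED.Gauss Fermat.Agent.SS
open Fermat.Agent.RED (GQ)
open Fermat.Agent.RED (RedData IsSepParam gR)

section Abs

variable {K F k Fb : Type*} [Field K] [Field F] [Algebra K F] [Field k] [Field Fb] [Algebra k Fb]

theorem gr0_red_ne_zero_of_val (R : RedData K F k Fb) {y : F} (h : R.O.valuation y = 1) :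
    ∃ hy : y ∈ R.O, R.red ⟨y, hy⟩ ≠ 0 := by
  have hy : y ∈ R.O := (R.O.valuation_le_one_iff y).1 h.le
  exact ⟨hy, (R.red_ne_zero_iff _).2 ((R.O.valuation_eq_one_iff ⟨y, hy⟩).2 h)⟩

theorem gr0_val_of_red_ne_zero (R : RedData K F k Fb) {y : F} (hy : y ∈ R.O)
    (h : R.red ⟨y, hy⟩ ≠ 0) : R.O.valuation y = 1 :=
  (R.O.valuation_eq_one_iff ⟨y, hy⟩).1 ((R.red_ne_zero_iff _).1 h)

theorem gr0_val_root {V : ValuationSubring F} {y : F} {m : ℕ} (hm : m ≠ 0)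
    (h : V.valuation y ^ m = 1) : V.valuation y = 1 :=
  (pow_eq_one_iff_of_nonneg zero_le hm).1 h

end Abs

variable {C : S36.Ctx}

/-- the reduction of a constant on the second component -/
theorem gr0_residue_of_red {z : Kb} (hz : z ∈ C.A)
    (hmem : algebraMap Kb (FN (C.M * C.q)) z ∈ (TC C).R₂.O)
    (h : (TC C).R₂.red ⟨_, hmem⟩ = 1) : C.π ⟨z, hz⟩ = 1 := by
  have h1 := redsTo_R₂ hmem
  rw [h, AlgHom.commutes] at h1
  have h2 := redsTo_C (π := C.π) ⟨z, hz⟩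
  have h3 : algebraMap Kb (LaurentSeries Kb) z = HahnSeries.C z := by
    rw [algebraMap_laurentSeries_eq_single, HahnSeries.C_apply]
  rw [h3] at h1
  have h4 := h2.unique h1
  have h5 : ((1 : C.Fb) : LaurentSeries C.k) = HahnSeries.C (1 : C.k) := by
    rw [map_one]; rfl
  rw [h5] at h4
  exact HahnSeries.C_injective h4

/-- **[GR0]**, the divisibility. -/
theorem gr0_dvd (𝒩 : NodalData (TC C)) [Nonempty 𝒩.S]
    (hI : ∀ σ : GQ, σ ∈ C.A.inertiaSubgroupIn ℚ → IsCompat 𝒩 (gal (C.M * C.q) σ) 1)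
    {p : ℕ} (hp : p.Prime) (hpq : p ≠ C.q) {D D₀ : Divisor Kb (FN (C.M * C.q))} {f : (TC C).O}
    (h : IsOne (TC C) p D f)
    (hD₀ : ∀ σ : GQ, σ ∈ C.A.inertiaSubgroupIn ℚ → gal (C.M * C.q) σ • D₀ = D₀)
    {H : FN (C.M * C.q)} (hH : ∀ v : Place Kb (FN (C.M * C.q)), v.ord H = D v - D₀ v)
    {g : C.F'} (hf : (f : FN (C.M * C.q)) = embF0 C.A (C.M * C.q) g * H ^ p)
    (hg0 : (C.O2 0).valuation g = 1) {a : ℤ}
    (hg1 : (C.O2 1).valuation g = (C.O2 1).valuation (C.q : C.F') ^ a) : (p : ℤ) ∣ a := by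
  have hp0 : p ≠ 0 := hp.ne_zero
  have hpk : (p : C.k) ≠ 0 := by
    intro h0
    have := (CharP.cast_eq_zero_iff C.k C.q p).1 h0
    exact hpq ((Nat.prime_dvd_prime_iff_eq C.hq hp).1 this).symm
  have hxs := RED.RB.isSepParam_jF (C.M * C.q)
  have hbs := RED.Cusp.isSepParam_jb C.M C.k C.q C.hqM
  -- the valuations of `f`
  have hf1 : (TC C).R₁.O.valuation (f : FN (C.M * C.q)) = 1 := by
    refine gr0_val_of_red_ne_zero (TC C).R₁ f.2.1 ?_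
    have : (TC C).R₁.red ⟨f, f.2.1⟩ = 1 := congrArg Prod.fst h.red
    rw [this]
    exact one_ne_zero
  have hf2 : (TC C).R₂.O.valuation (f : FN (C.M * C.q)) = 1 := by
    refine gr0_val_of_red_ne_zero (TC C).R₂ f.2.2 ?_
    have : (TC C).R₂.red ⟨f, f.2.2⟩ = 1 := congrArg Prod.snd h.red
    rw [this]
    exact one_ne_zero
  have hg0' := (dict_val_eq_one_comap (comap_R₁ (C := C)) g).1 hg0
  have hg1' := (dict_val_zpow_comap (comap_R₂ (C := C)) (C.unif2 1).ne_zero a).1 hg1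
  rw [embF0_natCast] at hg1'
  have hH1 : (TC C).R₁.O.valuation H = 1 := by
    refine gr0_val_root hp0 ?_
    rw [hf, map_mul, hg0', one_mul, map_pow] at hf1
    exact hf1
  obtain ⟨h₁, hr₁⟩ := gr0_red_ne_zero_of_val (TC C).R₁ hH1
  obtain ⟨ρ, hρ⟩ := IsAlgClosed.exists_pow_nat_eq (C.q : Kb) hp.pos
  have hq0 : (C.q : Kb) ≠ 0 := Nat.cast_ne_zero.2 C.hq.ne_zero
  have hρ0 : ρ ≠ 0 := by
    rintro rfl
    rw [zero_pow hp0] at hρ
    exact hq0 hρ.symm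
  set c : Kb := ρ ^ a with hc
  have hc0 : c ≠ 0 := zpow_ne_zero _ hρ0
  have hcp : c ^ p = (C.q : Kb) ^ a := by
    rw [hc, ← zpow_natCast, ← zpow_mul, mul_comm, zpow_mul, zpow_natCast, hρ]
  have hH2 : (TC C).R₂.O.valuation (algebraMap Kb (FN (C.M * C.q)) c * H) = 1 := by
    refine gr0_val_root hp0 ?_
    rw [← map_pow, mul_pow, ← map_pow, hcp, map_zpow₀, map_natCast, map_mul, map_zpow₀, ← hg1',
      ← map_mul, ← hf]
    exact hf2
  obtain ⟨h₂, hr₂⟩ := gr0_red_ne_zero_of_val (TC C).R₂ hH2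
  have hfix : ∀ τ ∈ C.A.inertiaSubgroupIn ℚ, τ c = c := by
    intro τ hτ
    obtain ⟨hmem, hred⟩ : ∃ hmem : algebraMap Kb (FN (C.M * C.q)) (c * (τ c)⁻¹) ∈ (TC C).R₂.O,
        (TC C).R₂.red ⟨_, hmem⟩ = 1 :=
      gr0_const 𝒩 hxs hbs hp0 h (hI τ hτ) (hD₀ τ hτ) hH h₁ hr₁ hc0 h₂ hr₂
    have hτc0 : τ c ≠ 0 := (map_ne_zero _).2 hc0
    have hzp : (c * (τ c)⁻¹) ^ p = 1 := by
      rw [mul_pow, inv_pow, ← map_pow, hcp, map_zpow₀, map_natCast,
        mul_inv_cancel₀ (zpow_ne_zero _ hq0)]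
    have hzA : c * (τ c)⁻¹ ∈ C.A := by
      rw [← C.A.valuation_le_one_iff]
      refine (gr0_val_root hp0 ?_).le
      rw [← map_pow, hzp, map_one]
    have h1 := gr0_residue_of_red hzA hmem hred
    have h2 := eq_one_of_pow_of_residue (C := C) hpk (z := ⟨_, hzA⟩) (Subtype.ext hzp) h1
    have h3 : c * (τ c)⁻¹ = 1 := congrArg Subtype.val h2
    exact (eq_of_mul_inv_eq_one h3).symm
  have hcK : c ∈ K0 C.A := mem_K0.2 hfix
  let c' : C.K := (⟨c, hcK⟩ : K0 C.A)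
  have hc' : algebraMap C.K Kb c' = c := rfl
  refine dvd_of_pow_eq_K (C := C) hp0 (c := c') ?_
  apply (algebraMap C.K Kb).injective
  rw [map_pow, hc', hcp, map_zpow₀, map_natCast]

/-- **[GR0]**, the final normalisation. -/
theorem gr0_final {p : ℕ} (hp0 : p ≠ 0) {f : (TC C).O} (hred : (TC C).red f = 1)
    {H : FN (C.M * C.q)} (hH0 : H ≠ 0) {g₁ : C.F'}
    (hfH : (f : FN (C.M * C.q)) = embF0 C.A (C.M * C.q) g₁ * H ^ p)
    (hg₁0 : (C.O2 0).valuation g₁ = 1) {m : ℤ}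
    (hg₁1 : (C.O2 1).valuation g₁ = (C.O2 1).valuation (C.q : C.F') ^ ((p : ℤ) * m))
    {x : JZero (C.M * C.q)} (hk₁ : Kum p x (embF0 C.A (C.M * C.q) g₁)) : x ∈ tor1 C p := by
  have hv0 : ∀ j, (C.O2 j).valuation (C.q : C.F') ≠ 0 := fun j => (C.unif2 j).val_ne_zero
  -- second normalisation
  set y : C.F' := unif2 C 1 ^ (-m) with hy
  have hϖ0 : unif2 C 1 ≠ 0 := (isUnif_unif2 C 1).ne_zero
  have hy0 : y ≠ 0 := zpow_ne_zero _ hϖ0
  set g₂ : C.F' := g₁ * y ^ p with hg₂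
  have hk₂ : Kum p x (embF0 C.A (C.M * C.q) g₂) := by
    have := hk₁.of_eq_mul_pow (g' := g₂) (y := y) (c := 1) (a := 1) one_ne_zero hy0
      (by rw [pow_one, map_one, one_mul])
    rwa [one_smul] at this
  have hg₂0 : (C.O2 0).valuation g₂ = 1 := by
    have h1 : (C.O2 0).valuation (unif2 C 1) = 1 := val_unif2_of_ne C (by decide)
    rw [hg₂, map_mul, hg₁0, one_mul, map_pow, hy, map_zpow₀, h1, one_zpow, one_pow]
  have hg₂1 : (C.O2 1).valuation g₂ = 1 := by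
    rw [hg₂, map_mul, hg₁1, map_pow, hy, map_zpow₀, val_unif2_self, ← zpow_natCast, ← zpow_mul,
      ← zpow_add₀ (hv0 1)]
    have : (p : ℤ) * m + -m * (p : ℤ) = 0 := by ring
    rw [this, zpow_zero]
  set H' : FN (C.M * C.q) := H⁻¹ * embF0 C.A (C.M * C.q) y with hH'
  have hg₂e : embF0 C.A (C.M * C.q) g₂ = (f : FN (C.M * C.q)) * H' ^ p := by
    rw [hg₂, map_mul, map_pow, hfH, hH', mul_pow, inv_pow]
    have : H ^ p ≠ 0 := pow_ne_zero p hH0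
    field_simp
  have hf1 : (TC C).R₁.red ⟨f, f.2.1⟩ = 1 := congrArg Prod.fst hred
  have hf2 : (TC C).R₂.red ⟨f, f.2.2⟩ = 1 := congrArg Prod.snd hred
  have hvf1 : (TC C).R₁.O.valuation (f : FN (C.M * C.q)) = 1 :=
    gr0_val_of_red_ne_zero (TC C).R₁ f.2.1 (by rw [hf1]; exact one_ne_zero)
  have hvf2 : (TC C).R₂.O.valuation (f : FN (C.M * C.q)) = 1 :=
    gr0_val_of_red_ne_zero (TC C).R₂ f.2.2 (by rw [hf2]; exact one_ne_zero)
  have hH'1 : (TC C).R₁.O.valuation H' = 1 := by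
    refine gr0_val_root hp0 ?_
    have := (dict_val_eq_one_comap (comap_R₁ (C := C)) g₂).1 hg₂0
    rwa [hg₂e, map_mul, hvf1, one_mul, map_pow] at this
  have hH'2 : (TC C).R₂.O.valuation H' = 1 := by
    refine gr0_val_root hp0 ?_
    have := (dict_val_eq_one_comap (comap_R₂ (C := C)) g₂).1 hg₂1
    rwa [hg₂e, map_mul, hvf2, one_mul, map_pow] at this
  obtain ⟨m₁, r₁⟩ := gr0_red_ne_zero_of_val (TC C).R₁ hH'1
  obtain ⟨m₂, r₂⟩ := gr0_red_ne_zero_of_val (TC C).R₂ hH'2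
  refine mem_tor1_of_redsTo_pow hk₂ ![(TC C).R₁.red ⟨H', m₁⟩, (TC C).R₂.red ⟨H', m₂⟩] ?_ ?_
  · intro j
    fin_cases j
    · exact r₁
    · exact r₂
  · intro j
    fin_cases j
    · show RedsTo C.π (C.e2 0 g₂) ((((TC C).R₁.red ⟨H', m₁⟩ : C.Fb) : LaurentSeries C.k) ^ p)
      have := (redsTo_R₁ f.2.1).mul ((redsTo_R₁ m₁).pow p)
      rw [hf1, ← map_pow, ← map_mul, ← hg₂e, emb₁_embF0] at this
      simpa using this
    · show RedsTo C.π (C.e2 1 g₂) ((((TC C).R₂.red ⟨H', m₂⟩ : C.Fb) : LaurentSeries C.k) ^ p)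
      have := (redsTo_R₂ f.2.2).mul ((redsTo_R₂ m₂).pow p)
      rw [hf2, ← map_pow, ← map_mul, ← hg₂e, emb₂_embF0] at this
      simpa using this

/-- **[GR0]** : the `SS`-toric classes are `K`-rationally toric. -/
theorem isToric_mem_tor1 (h49 : 4 ∣ C.M ∨ 9 ∣ C.M) {p : ℕ} (hp : p.Prime) (hpq : p ≠ C.q)
    (hS : gR Kb (FN (C.M * C.q)) - 2 * gR C.k C.Fb + 1 ≠ 0)
    {x : JZero (C.M * C.q)} (hx : IsToric (TC C) p x) : x ∈ tor1 C p := by
  have hp0 : p ≠ 0 := hp.ne_zero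
  have hpk : (p : C.k) ≠ 0 := by
    intro h0
    have := (CharP.cast_eq_zero_iff C.k C.q p).1 h0
    exact hpq ((Nat.prime_dvd_prime_iff_eq C.hq hp).1 this).symm
  have hxs := RED.RB.isSepParam_jF (C.M * C.q)
  have hbs := RED.Cusp.isSepParam_jb C.M C.k C.q C.hqM
  obtain ⟨𝒩, hI, -⟩ := exists_nodalData_compat C.hqM C.A h49 C.hA
  have : Nonempty 𝒩.S := by
    by_contra hcon
    rw [not_nonempty_iff] at hcon
    have := 𝒩.card
    rw [Fintype.card_eq_zero] at this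
    exact hS this.symm
  have hfix : ∀ τ ∈ C.A.inertiaSubgroupIn ℚ, τ • x = x := by
    intro τ hτ
    have := smul_eq_nsmul_of_isToric 𝒩 hxs hbs hp hpk 1 (hI τ hτ) 1 (fun ζ _ => by simp)
      (y := x) (by rwa [pow_one])
    rwa [one_smul] at this
  obtain ⟨D, f, rfl, h⟩ := hx.exists_isOne hxs
  have hf0 : (f : FN (C.M * C.q)) ≠ 0 := h.ne_zero
  have hpx : p • (Pic0.mk D : JZero (C.M * C.q)) = 0 :=
    Kum.nsmul_eq_zero (f := (f : FN (C.M * C.q))) ⟨D, rfl, hf0, h.ord⟩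
  obtain ⟨D₀, g₀, hD₀, hdiv, hg₀fix, hD₀fix⟩ :=
    Key.exists_fixed_isDiv (C.M * C.q) (C.A.inertiaSubgroupIn ℚ) hp0 _ hpx hfix
  obtain ⟨g₀, rfl⟩ := (mem_range_embF0_iff C.A (C.M * C.q) g₀).2 hg₀fix
  have hg₀0 : g₀ ≠ 0 := fun h0 => hdiv.1 (by rw [h0, map_zero])
  have hk₀ : Kum p (Pic0.mk D : JZero (C.M * C.q)) (embF0 C.A (C.M * C.q) g₀) := ⟨D₀, hD₀, hdiv⟩
  obtain ⟨n₀, hn₀⟩ := (C.unif2 0).disc g₀ hg₀0
  obtain ⟨n₁, hn₁⟩ := (C.unif2 1).disc g₀ hg₀0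
  have hqK : (C.q : C.K) ≠ 0 := Nat.cast_ne_zero.2 C.hq.ne_zero
  have hv0 : ∀ j, (C.O2 j).valuation (C.q : C.F') ≠ 0 := fun j => (C.unif2 j).val_ne_zero
  -- first normalisation
  set κ : C.K := (C.q : C.K) ^ (-n₀) with hκ
  have hκ0 : κ ≠ 0 := zpow_ne_zero _ hqK
  set g₁ : C.F' := algebraMap C.K C.F' κ * g₀ with hg₁
  have hκv : ∀ j, (C.O2 j).valuation (algebraMap C.K C.F' κ) =
      (C.O2 j).valuation (C.q : C.F') ^ (-n₀) := by
    intro j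
    rw [hκ, map_zpow₀, map_natCast, map_zpow₀]
  have hg₁0 : (C.O2 0).valuation g₁ = 1 := by
    rw [hg₁, map_mul, hκv, hn₀, ← zpow_add₀ (hv0 0), neg_add_cancel, zpow_zero]
  have hg₁1 : (C.O2 1).valuation g₁ = (C.O2 1).valuation (C.q : C.F') ^ (n₁ - n₀) := by
    rw [hg₁, map_mul, hκv, hn₁, ← zpow_add₀ (hv0 1), neg_add_eq_sub]
  -- the comparison function
  have hDD : Pic0.mk (D - D₀) = 0 := by
    rw [RED.TorsES.mk_sub', hD₀, sub_self]
  rw [RED.TorsES.mk_eq_zero_iff] at hDD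
  obtain ⟨H₀, hH₀0, hH₀⟩ := hDD
  have hH₀' : ∀ P : Place Kb (FN (C.M * C.q)),
      P.ord H₀ = (D : Divisor Kb (FN (C.M * C.q))) P - (D₀ : Divisor Kb (FN (C.M * C.q))) P := by
    intro P
    rw [← hH₀ P]
    rfl
  have hκF : algebraMap Kb (FN (C.M * C.q)) (algebraMap C.K Kb κ) ≠ 0 := by simpa using hκ0
  have hg₁e : embF0 C.A (C.M * C.q) g₁ =
      algebraMap Kb (FN (C.M * C.q)) (algebraMap C.K Kb κ) * embF0 C.A (C.M * C.q) g₀ := by
    rw [hg₁, map_mul, embF0_algebraMap]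
  have hg₁ne : embF0 C.A (C.M * C.q) g₁ ≠ 0 := by
    rw [hg₁e]
    exact mul_ne_zero hκF hdiv.1
  obtain ⟨c', hc'⟩ := S36.Kum.exists_eq_mul_pow_of_ord_eq (C.M * C.q) hp0 hf0
    (mul_ne_zero hg₁ne (pow_ne_zero p hH₀0)) (fun P => by
      rw [P.ord_mul hg₁ne (pow_ne_zero p hH₀0), hg₁e, P.ord_mul hκF hdiv.1,
        RED.TorsES.ord_algebraMap, zero_add, S24.Place.ord_pow, hH₀' P, ← hdiv.2 P, ← h.ord P]
      ring)
  have hc'0 : c' ≠ 0 := by
    rintro rfl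
    rw [map_zero, zero_pow hp0, mul_zero] at hc'
    exact hf0 hc'
  have hc'F : algebraMap Kb (FN (C.M * C.q)) c' ≠ 0 := by simpa using hc'0
  set H : FN (C.M * C.q) := H₀ * algebraMap Kb (FN (C.M * C.q)) c' with hHdef
  have hH0 : H ≠ 0 := mul_ne_zero hH₀0 hc'F
  have hfH : (f : FN (C.M * C.q)) = embF0 C.A (C.M * C.q) g₁ * H ^ p := by
    rw [hc', hHdef, mul_pow, mul_assoc]
  have hHord : ∀ P : Place Kb (FN (C.M * C.q)),
      P.ord H = (D : Divisor Kb (FN (C.M * C.q))) P - (D₀ : Divisor Kb (FN (C.M * C.q))) P := by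
    intro P
    rw [hHdef, P.ord_mul hH₀0 hc'F, RED.TorsES.ord_algebraMap, add_zero, hH₀' P]
  obtain ⟨m, hm⟩ := gr0_dvd 𝒩 hI hp hpq h hD₀fix hHord hfH hg₁0 hg₁1
  have hk₁ : Kum p (Pic0.mk D : JZero (C.M * C.q)) (embF0 C.A (C.M * C.q) g₁) := by
    have := hk₀.of_eq_mul_pow (g' := g₁) (y := 1) (c := κ) (a := 1) hκ0 one_ne_zero
      (by rw [pow_one, one_pow, mul_one])
    rwa [one_smul] at this
  rw [hm] at hg₁1
  exact gr0_final hp0 h.red hH0 hfH hg₁0 hg₁1 hk₁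

end Fermat.Agent.ML.Low
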