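import Fermat.Agent.SS.Abs.WStruct
import Fermat.Agent.SS.Abs.Inj

/-!
# ML / LOWER(A) : `[GR0-d2]`  (pure `SS/Abs` language)

`D` a divisor with `p D = div f`, `f ≡ (1, 1)`; `D'` linearly equivalent to `D`, `p D' = div g`, `g` a unit on both components.
Then the two reductions of `g` are `p`-th powers.

Proof.  `D' - D = div h₀`, so `g = c f h₀ ^ p` with a constant `c`.  Scale `h₀` to a unit `h'` of the first component: `g = c' f h' ^ p`,
so `c'` is a unit of the valuation ring of the constants, hence `h' ^ p` (and `h'`) is a unit of the second component too; the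
reduction of `c'` is a `p`-th power (`k` is algebraically closed).
-/

set_option autoImplicit false
set_option linter.unusedSectionVars false

open AlgebraicCurve

namespace Fermat.Agent.ML.Low

open Fermat.Agent.RED Fermat.Agent.S24 Fermat.Agent.SS

variable {K F k Fb : Type*} [Field K] [Field F] [Algebra K F] [Field k] [Field Fb] [Algebra k Fb]
  [IsAlgClosed K] [IsAlgClosed k] {x : F}

/-- **[GR0-d2]** -/
theorem red_pow_of_isOne (T : TwoRed K F k Fb) (hx : IsSepParam K x) {p : ℕ} (hp : p ≠ 0)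
    {D : Divisor K F} {f : T.O} (h : IsOne T p D f) {D' : Divisor K F} (g : T.O)
    (hg : ∀ v : Place K F, (p : ℤ) * D' v = v.ord (g : F))
    (hDD' : ∃ h₀ : F, h₀ ≠ 0 ∧ ∀ v : Place K F, (D' - D) v = v.ord h₀)
    (hu : (T.red g).1 ≠ 0 ∧ (T.red g).2 ≠ 0) :
    ∃ w₁ w₂ : Fb, w₁ ≠ 0 ∧ w₂ ≠ 0 ∧ T.red g = (w₁ ^ p, w₂ ^ p) := by
  obtain ⟨h₀, hh0, hh⟩ := hDD'
  have hf0 : (f : F) ≠ 0 := h.ne_zero
  have hg0 : (g : F) ≠ 0 := by
    intro h0
    have : g = 0 := Subtype.ext h0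
    rw [this, map_zero] at hu
    exact hu.1 rfl
  -- the constant
  have hden : (f : F) * h₀ ^ p ≠ 0 := mul_ne_zero hf0 (pow_ne_zero _ hh0)
  have hz0 : (g : F) * ((f : F) * h₀ ^ p)⁻¹ ≠ 0 := mul_ne_zero hg0 (inv_ne_zero hden)
  have hzL : (g : F) * ((f : F) * h₀ ^ p)⁻¹ ∈ riemannRochSpace (0 : Divisor K F) := by
    rw [mem_L_iff_of_ne_zero hz0]
    intro v
    rw [v.ord_mul hg0 (inv_ne_zero hden), Place.ord_inv, v.ord_mul hf0 (pow_ne_zero _ hh0),
      Place.ord_pow, ← hg v, ← h.ord v, ← hh v]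
    simp only [Finsupp.sub_apply, Finsupp.coe_zero, Pi.zero_apply]
    linarith
  rw [hx.L_zero, Submodule.mem_one] at hzL
  obtain ⟨c, hc⟩ := hzL
  have hgc : (g : F) = algebraMap K F c * ((f : F) * h₀ ^ p) := by
    rw [hc, mul_assoc, inv_mul_cancel₀ hden, mul_one]
  -- scaling
  obtain ⟨γ, hγmem, hγred⟩ := T.R₁.exists_scale h₀ hh0
  have hγ0 : γ ≠ 0 := by
    rintro rfl
    apply hγred
    have : (⟨algebraMap K F 0 * h₀, hγmem⟩ : T.R₁.O) = 0 := Subtype.ext (by simp)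
    rw [this, map_zero]
  have hγF : algebraMap K F γ ≠ 0 := by simpa using hγ0
  obtain ⟨h', hh'⟩ : ∃ h' : F, h' = algebraMap K F γ * h₀ := ⟨_, rfl⟩
  have hh'0 : h' ≠ 0 := by rw [hh']; exact mul_ne_zero hγF hh0
  obtain ⟨c', hc'⟩ : ∃ c' : K, c' = c * (γ⁻¹) ^ p := ⟨_, rfl⟩
  obtain ⟨P, hP⟩ : ∃ P : F, P = h' ^ p := ⟨_, rfl⟩
  have hP0 : P ≠ 0 := by rw [hP]; exact pow_ne_zero _ hh'0
  have hgc' : (g : F) = algebraMap K F c' * ((f : F) * P) := by
    have e1 : (algebraMap K F γ)⁻¹ ^ p * (algebraMap K F γ) ^ p = 1 := by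
      rw [← mul_pow, inv_mul_cancel₀ hγF, one_pow]
    rw [hgc, hc', hP, hh', map_mul, map_pow, map_inv₀, mul_pow]
    linear_combination (-(algebraMap K F c * (f : F) * h₀ ^ p)) * e1
  have hc'0 : algebraMap K F c' ≠ 0 := by
    intro h0
    rw [h0, zero_mul] at hgc'
    exact hg0 hgc'
  -- units of the first component
  have f1 : T.R₁.red ⟨f, f.2.1⟩ = 1 := congrArg Prod.fst h.red
  have f2 : T.R₂.red ⟨f, f.2.2⟩ = 1 := congrArg Prod.snd h.red
  have fi1 : ((f : F))⁻¹ ∈ T.R₁.O :=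
    T.R₁.inv_mem_of_red_ne_zero (x := ⟨f, f.2.1⟩) (by rw [f1]; exact one_ne_zero)
  have fi2 : ((f : F))⁻¹ ∈ T.R₂.O :=
    T.R₂.inv_mem_of_red_ne_zero (x := ⟨f, f.2.2⟩) (by rw [f2]; exact one_ne_zero)
  have gi1 : ((g : F))⁻¹ ∈ T.R₁.O := T.R₁.inv_mem_of_red_ne_zero (x := ⟨g, g.2.1⟩) hu.1
  have hm1 : h' ∈ T.R₁.O := by rw [hh']; exact hγmem
  have hi1 : h'⁻¹ ∈ T.R₁.O := by
    have := T.R₁.inv_mem_of_red_ne_zero hγred
    rw [hh']
    exact this
  have hPm : P ∈ T.R₁.O := by rw [hP]; exact pow_mem hm1 p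
  have hPi : P⁻¹ ∈ T.R₁.O := by rw [hP, ← inv_pow]; exact pow_mem hi1 p
  have hcA : c' ∈ T.A := by
    rw [TwoRed.mem_A]
    have : algebraMap K F c' = (g : F) * ((f : F)⁻¹ * P⁻¹) := by
      rw [hgc']
      field_simp
    rw [this]
    exact mul_mem g.2.1 (mul_mem fi1 hPi)
  have hcA' : c'⁻¹ ∈ T.A := by
    rw [TwoRed.mem_A, map_inv₀]
    have : (algebraMap K F c')⁻¹ = (g : F)⁻¹ * ((f : F) * P) := by
      rw [hgc']
      field_simp
    rw [this]
    exact mul_mem gi1 (mul_mem f.2.1 hPm)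
  -- the second component
  have hm2 : h' ∈ T.R₂.O := by
    apply mem_valSubring_of_pow_mem _ hp
    have : h' ^ p = algebraMap K F c'⁻¹ * ((g : F) * (f : F)⁻¹) := by
      rw [← hP, hgc', map_inv₀]
      field_simp
    rw [this]
    exact mul_mem ((T.const_mem _).1 hcA') (mul_mem g.2.2 fi2)
  rw [hP] at hgc'
  -- the reduction
  obtain ⟨a, ha⟩ := T.exists_red_const hcA
  have hprod : g = ⟨algebraMap K F c', T.algebraMap_mem_O hcA⟩ * (f * (⟨h', hm1, hm2⟩ : T.O) ^ p) :=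
    Subtype.ext hgc'
  obtain ⟨e, he⟩ := IsAlgClosed.exists_pow_nat_eq a (Nat.pos_of_ne_zero hp)
  have hred : T.red g = ((algebraMap k Fb e * (T.red ⟨h', hm1, hm2⟩).1) ^ p,
      (algebraMap k Fb e * (T.red ⟨h', hm1, hm2⟩).2) ^ p) := by
    rw [hprod, map_mul, map_mul, map_pow, ha, h.red, one_mul, ← he, map_pow, mul_pow, mul_pow]
    rfl
  refine ⟨_, _, ?_, ?_, hred⟩
  · intro h0
    apply hu.1
    rw [hred]
    show (algebraMap k Fb e * (T.red ⟨h', hm1, hm2⟩).1) ^ p = 0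
    rw [h0, zero_pow hp]
  · intro h0
    apply hu.2
    rw [hred]
    show (algebraMap k Fb e * (T.red ⟨h', hm1, hm2⟩).2) ^ p = 0
    rw [h0, zero_pow hp]

end Fermat.Agent.ML.Low
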