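import Fermat.Agent.RIB.Ctrl.Kap.Dict
import Fermat.Agent.SS.Abs.Defs

/-!
# ML / LOWER(A) / [GR0-d2]: unit Kummer functions of a toric class reduce to `p`-th powers
-/

set_option autoImplicit false
set_option linter.unusedSectionVars false

noncomputable section

open AlgebraicCurve ModularCurve

namespace Fermat.Agent.ML.Low

open Fermat.Agent.RED hiding Kb
open Fermat.Agent.S24 Fermat.Agent.SS Fermat.Agent.RIB

variable {N : ℕ} [NeZero N]

/-- a Kummer function of the class `0` is an `m`-th power (over `ℚbar`). -/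
theorem exists_pow_of_kum_zero {m : ℕ} (hm : m ≠ 0) {u : FN N} (h : Kum m (0 : JZero N) u) :
    ∃ b : FN N, b ≠ 0 ∧ u = b ^ m := by
  obtain ⟨D, hD0, hD⟩ := h
  rw [RED.TorsES.mk_eq_zero_iff] at hD0
  obtain ⟨b, hb0, hb⟩ := hD0
  obtain ⟨c', hc'⟩ := S36.Kum.exists_eq_mul_pow_of_ord_eq N hm hD.1 (pow_ne_zero m hb0)
    (fun P => by rw [S24.Place.ord_pow, ← hD.2 P, hb P])
  refine ⟨b * algebraMap Kb (FN N) c', ?_, by rw [hc', mul_pow]⟩
  intro h0
  apply hD.1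
  rw [hc', ← mul_pow, h0, zero_pow hm]

/-- two Kummer functions of the same class differ by an `m`-th power (over `ℚbar`). -/
theorem exists_pow_of_kum_kum {m : ℕ} (hm : m ≠ 0) {x : JZero N} {f g : FN N} (hf : Kum m x f)
    (hg : Kum m x g) : ∃ b : FN N, b ≠ 0 ∧ g = f * b ^ m := by
  have h0 : Kum m (0 : JZero N) (g / f) := by
    have := hg.sub hf
    rwa [sub_self] at this
  obtain ⟨b, hb0, hb⟩ := exists_pow_of_kum_zero hm h0
  refine ⟨b, hb0, ?_⟩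
  rw [← hb, mul_div_cancel₀ _ hf.ne_zero]

theorem exists_kum_of_isToric {k Fb : Type*} [Field k] [Field Fb] [Algebra k Fb]
    {T : TwoRed Kb (FN N) k Fb} {m : ℕ} {x : JZero N} (hx : IsToric T m x) :
    ∃ (f : T.O) (a₁ a₂ : Fb), Kum m x (f : FN N) ∧ a₁ ≠ 0 ∧ a₂ ≠ 0 ∧ T.red f = (a₁ ^ m, a₂ ^ m) := by
  obtain ⟨D, f, a₁, a₂, rfl, hD, h1, h2, hr⟩ := hx
  refine ⟨f, a₁, a₂, ⟨D, rfl, ?_, hD⟩, h1, h2, hr⟩
  intro h0
  have : f = 0 := Subtype.ext h0
  rw [this, map_zero] at hr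
  have := congrArg Prod.fst hr
  exact pow_ne_zero m h1 this.symm

theorem val_eq_one_of_red_ne_zero {K F k Fb : Type*} [Field K] [Field F] [Algebra K F] [Field k]
    [Field Fb] [Algebra k Fb] (R : RedData K F k Fb) {u : R.O} (hu : R.red u ≠ 0) :
    R.O.valuation (u : F) = 1 :=
  (R.O.valuation_eq_one_iff u).mp (R.isUnit_of_red_ne_zero u hu)

/-- **[GR0-d2]** -/
theorem red_pow_of_toric {k Fb : Type*} [Field k] [Field Fb] [Algebra k Fb]
    (T : TwoRed Kb (FN N) k Fb) {p : ℕ} (hp : p ≠ 0) {x : JZero N} (hx : IsToric T p x)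
    (g : T.O) (hg : Kum p x (g : FN N)) (hu1 : (T.red g).1 ≠ 0) (hu2 : (T.red g).2 ≠ 0) :
    ∃ w₁ w₂ : Fb, w₁ ≠ 0 ∧ w₂ ≠ 0 ∧ T.red g = (w₁ ^ p, w₂ ^ p) := by
  obtain ⟨f, a₁, a₂, hf, h1, h2, hr⟩ := exists_kum_of_isToric hx
  obtain ⟨b, hb0, hb⟩ := exists_pow_of_kum_kum hp hf hg
  have hf1 : T.R₁.O.valuation (f : FN N) = 1 := by
    refine val_eq_one_of_red_ne_zero T.R₁ (u := ⟨f, f.2.1⟩) ?_
    rw [← T.red_fst, hr]
    exact pow_ne_zero p h1
  have hf2 : T.R₂.O.valuation (f : FN N) = 1 := by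
    refine val_eq_one_of_red_ne_zero T.R₂ (u := ⟨f, f.2.2⟩) ?_
    rw [← T.red_snd, hr]
    exact pow_ne_zero p h2
  have hg1 : T.R₁.O.valuation (g : FN N) = 1 := val_eq_one_of_red_ne_zero T.R₁ (u := ⟨g, g.2.1⟩) hu1
  have hg2 : T.R₂.O.valuation (g : FN N) = 1 := val_eq_one_of_red_ne_zero T.R₂ (u := ⟨g, g.2.2⟩) hu2
  have hb1 : T.R₁.O.valuation b = 1 := by
    have : T.R₁.O.valuation b ^ p = 1 := by
      have h3 := congrArg T.R₁.O.valuation hb
      rw [map_mul, hf1, hg1, one_mul, map_pow] at h3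
      exact h3.symm
    exact (pow_eq_one_iff.mp this).resolve_right hp
  have hb2 : T.R₂.O.valuation b = 1 := by
    have : T.R₂.O.valuation b ^ p = 1 := by
      have h3 := congrArg T.R₂.O.valuation hb
      rw [map_mul, hf2, hg2, one_mul, map_pow] at h3
      exact h3.symm
    exact (pow_eq_one_iff.mp this).resolve_right hp
  have hbO : b ∈ T.O :=
    ⟨(T.R₁.O.valuation_le_one_iff b).mp hb1.le, (T.R₂.O.valuation_le_one_iff b).mp hb2.le⟩
  have e : g = f * (⟨b, hbO⟩ : T.O) ^ p := Subtype.ext hb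
  have e2 : T.red g = ((a₁ * (T.red ⟨b, hbO⟩).1) ^ p, (a₂ * (T.red ⟨b, hbO⟩).2) ^ p) := by
    rw [e, map_mul, map_pow, hr]
    exact Prod.ext (by simp [mul_pow]) (by simp [mul_pow])
  refine ⟨a₁ * (T.red ⟨b, hbO⟩).1, a₂ * (T.red ⟨b, hbO⟩).2, ?_, ?_, e2⟩
  · intro h0
    rw [e2, h0, zero_pow hp] at hu1
    exact hu1 rfl
  · intro h0
    rw [e2, h0, zero_pow hp] at hu2
    exact hu2 rfl

end Fermat.Agent.ML.Low
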