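import Fermat.Agent.S36.K0
import Fermat.Agent.S56.Tame.Basic

/-!
# ML / LOWER(A) / [GR0-c]: a tame divisibility

`A ∣ q`, `p ≠ q` prime, `γ ≠ 0` with `v(γ)^p = v(q)^a` and `τ γ / γ ≡ 1` for all `τ` in the
inertia group of `A`.  Then `p ∣ a`.
-/

set_option autoImplicit false

namespace Fermat.Agent.ML.Low

open Fermat.Agent.S36 Fermat.Agent.S56 Fermat.Agent.Cheb

local notation "Qbar" => AlgebraicClosure ℚ
local notation "GQ" => (AlgebraicClosure ℚ ≃ₐ[ℚ] AlgebraicClosure ℚ)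

variable {A : ValuationSubring Qbar} {q p : ℕ}

/-- a natural number prime to `q` is a unit of `A`. -/
theorem tame_val_natCast (hq : q.Prime) (hA : A.LiesOverPrime q) {m : ℕ} (hm : ¬ q ∣ m) :
    A.valuation (m : Qbar) = 1 := by
  have hq1 : A.valuation (q : Qbar) < 1 := A.mem_nonunits_iff.mp hA
  have hcop : Nat.Coprime m q := ((Nat.Prime.coprime_iff_not_dvd hq).mpr hm).symm
  obtain ⟨a, b, hab⟩ := Nat.isCoprime_iff_coprime.mpr hcop
  have hint : ∀ z : ℤ, A.valuation (z : Qbar) ≤ 1 := fun z =>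
    (A.valuation_le_one_iff _).mpr (intCast_mem A z)
  have hm1 : A.valuation (m : Qbar) ≤ 1 := by
    have := hint (m : ℤ)
    rwa [Int.cast_natCast] at this
  refine le_antisymm hm1 ?_
  by_contra hlt
  push Not at hlt
  have h7 : (1 : Qbar) = (a : Qbar) * (m : Qbar) + (b : Qbar) * (q : Qbar) := by
    have := congrArg (Int.cast : ℤ → Qbar) hab
    push_cast at this
    exact this.symm
  have h8 : A.valuation (1 : Qbar) < 1 := by
    rw [h7]
    refine lt_of_le_of_lt (A.valuation.map_add _ _) (max_lt ?_ ?_)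
    · rw [map_mul]
      exact lt_of_le_of_lt (mul_le_of_le_one_left zero_le (hint a)) hlt
    · rw [map_mul]
      exact lt_of_le_of_lt (mul_le_of_le_one_left zero_le (hint b)) hq1
  rw [map_one] at h8
  exact lt_irrefl _ h8

/-- reduction is injective on roots of unity of order prime to `q`. -/
theorem tame_eq_one_of_pow (hq : q.Prime) (hA : A.LiesOverPrime q) {m : ℕ} (hm : ¬ q ∣ m)
    {ζ : Qbar} (hζ : ζ ^ m = 1) (h1 : A.valuation (ζ - 1) < 1) : ζ = 1 := by
  by_contra hne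
  have h2 : (ζ - 1) * ∑ i ∈ Finset.range m, ζ ^ i = 0 := by
    rw [mul_geom_sum, hζ, sub_self]
  have h3 : ∑ i ∈ Finset.range m, ζ ^ i = 0 :=
    (mul_eq_zero.mp h2).resolve_left (sub_ne_zero.mpr hne)
  have hζ1 : A.valuation ζ ≤ 1 := by
    have : ζ = (ζ - 1) + 1 := by ring
    rw [this]
    exact le_trans (A.valuation.map_add _ _) (max_le h1.le (by rw [map_one]))
  have h4 : ∀ i : ℕ, A.valuation (ζ ^ i - 1) < 1 := by
    intro i
    have := tameP_pow_congr (A := A) hζ1 (by rw [map_one]) h1 i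
    rwa [one_pow] at this
  have h5 : (m : Qbar) = - ∑ i ∈ Finset.range m, (ζ ^ i - 1) := by
    rw [Finset.sum_sub_distrib, h3]
    simp
  have h6 : A.valuation (m : Qbar) < 1 := by
    rw [h5, Valuation.map_neg]
    exact A.valuation.map_sum_lt (by simp) (fun i _ => h4 i)
  rw [tame_val_natCast hq hA hm] at h6
  exact lt_irrefl _ h6

/-- **[GR0-c]** -/
theorem dvd_of_tame (hq : q.Prime) (hA : A.LiesOverPrime q) (hp : p.Prime) (hpq : p ≠ q)
    {γ : Qbar} (hγ : γ ≠ 0) {a : ℤ} (hv : A.valuation γ ^ p = A.valuation (q : Qbar) ^ a)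
    (hI : ∀ τ ∈ A.inertiaSubgroupIn ℚ, A.valuation (τ γ / γ - 1) < 1) : (p : ℤ) ∣ a := by
  by_contra hna
  have hq1 : A.valuation (q : Qbar) < 1 := A.mem_nonunits_iff.mp hA
  have hqQ : (q : Qbar) ≠ 0 := by exact_mod_cast hq.ne_zero
  have hq0 : A.valuation (q : Qbar) ≠ 0 := (A.valuation.ne_zero_iff).mpr hqQ
  obtain ⟨ϱ, hϱ⟩ := IsAlgClosed.exists_pow_nat_eq (q : Qbar) hp.pos
  have hϱ0 : ϱ ≠ 0 := by
    rintro rfl
    rw [zero_pow hp.ne_zero] at hϱ
    exact hqQ hϱ.symm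
  have hcop : IsCoprime a (p : ℤ) :=
    ((Nat.prime_iff_prime_int.mp hp).coprime_iff_not_dvd.mpr hna).symm
  obtain ⟨s, t, hst⟩ := hcop
  -- `u = γ / ϱ ^ a` is a unit
  set u : Qbar := γ * (ϱ ^ a)⁻¹ with hu
  have hvu : A.valuation u = 1 := by
    have h1 : A.valuation u ^ p = 1 := by
      rw [hu, map_mul, mul_pow, hv, map_inv₀, map_zpow₀, inv_pow, ← zpow_natCast (_ ^ a) p,
        ← zpow_mul, mul_comm a, zpow_mul, zpow_natCast, ← map_pow, hϱ,
        mul_inv_cancel₀ (zpow_ne_zero _ hq0)]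
    exact (pow_eq_one_iff.mp h1).resolve_right hp.ne_zero
  have hfix : ∀ τ ∈ A.inertiaSubgroupIn ℚ, τ ϱ = ϱ := by
    intro τ hτ
    have hD := Bridge.mem_decomposition_of_mem_inertia hτ
    have h1D : (1 : GQ) ∈ A.decompositionSubgroup ℚ := Subgroup.one_mem _
    have hγ0 := tameP_val_pos (A := A) hγ
    have rγ : A.valuation (τ γ - (1 : GQ) γ) < A.valuation γ := by
      have e : τ γ - (1 : GQ) γ = (τ γ / γ - 1) * γ := by
        rw [AlgEquiv.one_apply]; field_simp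
      rw [e, map_mul]
      calc A.valuation (τ γ / γ - 1) * A.valuation γ < 1 * A.valuation γ :=
            mul_lt_mul_of_pos_right (hI τ hτ) hγ0
        _ = A.valuation γ := one_mul _
    have ru : A.valuation (τ u - (1 : GQ) u) < A.valuation u := tameP_unit hτ hvu
    have rϱa : A.valuation (τ (ϱ ^ a) - (1 : GQ) (ϱ ^ a)) < A.valuation (ϱ ^ a) := by
      have e : ϱ ^ a = γ * u⁻¹ := by
        rw [hu, mul_inv, inv_inv, ← mul_assoc, mul_inv_cancel₀ hγ, one_mul]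
      rw [e]
      exact tameP_rel_mul hD h1D rγ (tameP_rel_inv hD h1D ru)
    have rq : A.valuation (τ ((q : Qbar) ^ t) - (1 : GQ) ((q : Qbar) ^ t))
        < A.valuation ((q : Qbar) ^ t) := by
      rw [AlgEquiv.one_apply, map_zpow₀, map_natCast, sub_self, map_zero]
      exact tameP_val_pos (zpow_ne_zero _ hqQ)
    have rϱ : A.valuation (τ ϱ - (1 : GQ) ϱ) < A.valuation ϱ := by
      have e : ϱ = (ϱ ^ a) ^ s * (q : Qbar) ^ t := by
        rw [← hϱ, ← zpow_natCast ϱ p, ← zpow_mul, ← zpow_mul, ← zpow_add₀ hϱ0,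
          mul_comm a s, mul_comm (p : ℤ) t, hst, zpow_one]
      have := tameP_rel_mul hD h1D (tameP_rel_zpow hD h1D rϱa s) rq
      rwa [← e] at this
    rw [AlgEquiv.one_apply] at rϱ
    have hϱv := tameP_val_pos (A := A) hϱ0
    have hζ : (τ ϱ / ϱ) ^ p = 1 := by
      rw [div_pow, ← map_pow, hϱ, map_natCast, div_self hqQ]
    have hζ1 : A.valuation (τ ϱ / ϱ - 1) < 1 := by
      have e : τ ϱ / ϱ - 1 = (τ ϱ - ϱ) * ϱ⁻¹ := by field_simp
      rw [e, map_mul, map_inv₀]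
      calc A.valuation (τ ϱ - ϱ) * (A.valuation ϱ)⁻¹ < A.valuation ϱ * (A.valuation ϱ)⁻¹ :=
            mul_lt_mul_of_pos_right rϱ (inv_pos.2 hϱv)
        _ = 1 := mul_inv_cancel₀ hϱv.ne'
    have hqp : ¬ q ∣ p := fun h => hpq ((Nat.prime_dvd_prime_iff_eq hq hp).mp h).symm
    have := tame_eq_one_of_pow hq hA hqp hζ hζ1
    exact (div_eq_one_iff_eq hϱ0).mp this
  obtain ⟨n, hn⟩ := exists_zpow_of_inertia_fixed hq hA hϱ0 hfix
  have h1 : A.valuation (q : Qbar) ^ (n * p) = A.valuation (q : Qbar) ^ (1 : ℤ) := by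
    rw [zpow_mul, ← hn, zpow_natCast, ← map_pow, hϱ, zpow_one]
  have h2 : n * p = 1 := zpow_right_injective₀ (zero_lt_iff.mpr hq0) hq1.ne h1
  have h3 : (p : ℤ) ∣ 1 := ⟨n, by rw [mul_comm]; exact h2.symm⟩
  have h4 : p ∣ 1 := by exact_mod_cast h3
  exact hp.one_lt.ne' (Nat.dvd_one.mp h4)

end Fermat.Agent.ML.Low
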