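import Fermat.Agent.ML.Low.Gr0.Abs
import Fermat.Agent.ML.Low.Real
import Fermat.Agent.ML.Low.Gr0.Tame

/-!
# ML / LOWER(A) : `[GR0-d1]`  the constant `γ` attached to an inertia-fixed Kummer function of a toric class

`x` an `SS`-toric class of level `M q`, `g0` an `I`-fixed Kummer function of `x` with `v_i g0 = |q| ^ n_i`.  Then there is a constant
`γ ≠ 0` with `|γ| ^ p = |q| ^ (n₁ - n₂)` and `|τ γ / γ - 1| < 1` for all `τ ∈ I`   (`exists_gamma`).

Proof.  `x = [D]`, `p D = div f`, `f ≡ (1, 1)`; `x = [D0]`, `p D0 = div g0`, `D - D0 = div B`, `f = c ^ p g0 B ^ p`.  `τ D0 = D0`, so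
`r := τ B / B` has divisor `τ D - D`.  If `c_i B` is a unit for `v_i` then `red_i r = red (c_i / τ c_i)` (`τ` acts trivially on the reductions).  By
`red_const_eq'` the two constants are equal.  `γ := c₁ / c₂`.
-/

set_option autoImplicit false
set_option linter.style.haveILetI false
set_option linter.unusedSectionVars false
set_option synthInstance.maxHeartbeats 400000

noncomputable section

open AlgebraicCurve ModularCurve IsLocalRing

namespace Fermat.Agent.ML.Low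

open Fermat.Agent.RED hiding Kb
open Fermat.Agent.S24 Fermat.Agent.SS

section Abs

variable {K F k Fb : Type*} [Field K] [Field F] [Algebra K F] [Field k] [Field Fb] [Algebra k Fb]

/-- `g f / f` is a unit whose reduction is the reduction of the constant `c / g c`, `c` any constant such that `c f` is a unit. -/
theorem RedData_smul_div_const (R : RedData K F k Fb) (g : SemilinearAut K F)
    (hmem : ∀ u : R.O, g • (u : F) ∈ R.O)
    (hred : ∀ u : R.O, R.red ⟨g • (u : F), hmem u⟩ = R.red u)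
    (hunit : ∀ c : K, c ≠ 0 → algebraMap K F (SemilinearAut.baseAut g c * c⁻¹) ∈ R.O)
    {f : F} {c : K} (hc : algebraMap K F c * f ∈ R.O) (hcred : R.red ⟨_, hc⟩ ≠ 0) :
    ∃ (h : (g • f) * f⁻¹ ∈ R.O) (hd : algebraMap K F (c * (SemilinearAut.baseAut g c)⁻¹) ∈ R.O),
      R.red ⟨_, h⟩ = R.red ⟨_, hd⟩ := by
  have hc0 : c ≠ 0 := by
    rintro rfl
    apply hcred
    have : (⟨algebraMap K F 0 * f, hc⟩ : R.O) = 0 := Subtype.ext (by simp)
    rw [this, map_zero]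
  have hf : f ≠ 0 := by
    rintro rfl
    apply hcred
    have : (⟨algebraMap K F c * 0, hc⟩ : R.O) = 0 := Subtype.ext (by simp)
    rw [this, map_zero]
  set u : R.O := ⟨algebraMap K F c * f, hc⟩ with hu
  set gc := SemilinearAut.baseAut g c with hgc
  have hgc0 : gc ≠ 0 := by
    rw [hgc, Ne, map_eq_zero_iff _ (SemilinearAut.baseAut g).injective]
    exact hc0
  have hd : algebraMap K F (c * gc⁻¹) ∈ R.O := by
    have := hunit c⁻¹ (inv_ne_zero hc0)
    rwa [map_inv₀, inv_inv, mul_comm] at this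
  let E : R.O := ⟨g • (u : F), hmem u⟩ * ⟨(u : F)⁻¹, R.inv_mem_of_red_ne_zero hcred⟩ * ⟨_, hd⟩
  have hE : (E : F) = (g • f) * f⁻¹ := by
    show g • (algebraMap K F c * f) * (algebraMap K F c * f)⁻¹ * algebraMap K F (c * gc⁻¹) = _
    rw [smul_mul', SemilinearAut.smul_algebraMap, map_mul, map_inv₀]
    have h1 : algebraMap K F c ≠ 0 := by rwa [Ne, map_eq_zero]
    have h2 : algebraMap K F gc ≠ 0 := by rwa [Ne, map_eq_zero]
    field_simp
    exact mul_comm _ _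
  have hEred : R.red E = R.red ⟨_, hd⟩ := by
    show R.red (_ * _ * _) = _
    rw [map_mul, map_mul, hred u, R.red_inv hcred, mul_inv_cancel₀ hcred, one_mul]
  refine ⟨hE ▸ E.2, hd, ?_⟩
  rw [← hEred]
  exact congrArg R.red (Subtype.ext hE.symm)

/-- an element of `O` with zero reduction has valuation `< 1`. -/
theorem RedData_val_lt_one (R : RedData K F k Fb) {f : F} (hf : f ∈ R.O)
    (h : R.red ⟨f, hf⟩ = 0) : R.O.valuation f < 1 := by
  rcases lt_or_eq_of_le ((R.O.valuation_le_one_iff f).2 hf) with h1 | h1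
  · exact h1
  · exfalso
    have hu : IsUnit (⟨f, hf⟩ : R.O) := (ValuationSubring.valuation_eq_one_iff R.O ⟨f, hf⟩).2 h1
    exact (hu.map R.red).ne_zero h

variable [IsAlgClosed K] [IsAlgClosed k] {x : F} {t : Fb} {T : TwoRed K F k Fb}

/-- **the two scaling constants have the same variation under `g`.** -/
theorem scale_const_eq (𝒩 : NodalData T) (hx : IsSepParam K x) (hb : IsSepParam k t) {p : ℕ}
    (hp : p ≠ 0) {D : Divisor K F} {f : T.O} (h : IsOne T p D f) {g : SemilinearAut K F}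
    (hg : IsCompat 𝒩 g 1) {D0 : Divisor K F} (hD0 : g • D0 = D0) {B : F}
    (hB : ∀ v : Place K F, v.ord B = D v - D0 v) {c₁ c₂ : K}
    (h₁ : algebraMap K F c₁ * B ∈ T.R₁.O) (h₁' : T.R₁.red ⟨_, h₁⟩ ≠ 0)
    (h₂ : algebraMap K F c₂ * B ∈ T.R₂.O) (h₂' : T.R₂.red ⟨_, h₂⟩ ≠ 0) :
    T.R₁.O.valuation (algebraMap K F (c₁ * (SemilinearAut.baseAut g c₁)⁻¹ -
      c₂ * (SemilinearAut.baseAut g c₂)⁻¹)) < 1 := by
  have hB0 : B ≠ 0 := by
    rintro rfl
    apply h₁'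
    have : (⟨algebraMap K F c₁ * 0, h₁⟩ : T.R₁.O) = 0 := Subtype.ext (by simp)
    rw [this, map_zero]
  obtain ⟨k₁, d₁, e₁⟩ := RedData_smul_div_const T.R₁ g hg.mem₁
    (fun u => by rw [hg.red₁ u, one_smul]) (fun c hc => hg.unit c hc) h₁ h₁'
  obtain ⟨k₂, d₂, e₂⟩ := RedData_smul_div_const T.R₂ g hg.mem₂
    (fun u => by rw [hg.red₂ u, one_smul]) (fun c hc => (T.const_mem _).1 (hg.unit c hc)) h₂ h₂'
  obtain ⟨a₁, ha₁⟩ := T.R₁.red_const _ d₁
  obtain ⟨a₂, ha₂⟩ := T.R₂.red_const _ d₂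
  have hgB0 : g • B ≠ 0 := by
    rw [Ne, smul_eq_zero_iff_eq]
    exact hB0
  have hr0 : (g • B) * B⁻¹ ≠ 0 := mul_ne_zero hgB0 (inv_ne_zero hB0)
  have key : a₁ = a₂ := by
    refine red_const_eq' 𝒩 hx hb hp h hg ⟨(g • B) * B⁻¹, k₁, k₂⟩ hr0 (fun v => ?_) a₁ a₂
      (Prod.ext (e₁.trans ha₁) (e₂.trans ha₂))
    show _ = v.ord ((g • B) * B⁻¹)
    have h1 := SemilinearAut.ord_smul g (g⁻¹ • v) B
    rw [smul_inv_smul] at h1
    rw [v.ord_mul hgB0 (inv_ne_zero hB0), v.ord_inv, h1, hB, hB, Finsupp.sub_apply,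
      SemilinearAut.divisor_smul_apply]
    have h2 : D0 (g⁻¹ • v) = D0 v := by
      conv_rhs => rw [← hD0]
      rw [SemilinearAut.divisor_smul_apply]
    rw [h2]
    ring
  have d₂' : algebraMap K F (c₂ * (SemilinearAut.baseAut g c₂)⁻¹) ∈ T.R₁.O := (T.const_mem _).2 d₂
  have hsub : algebraMap K F (c₁ * (SemilinearAut.baseAut g c₁)⁻¹ -
      c₂ * (SemilinearAut.baseAut g c₂)⁻¹) ∈ T.R₁.O := by
    rw [map_sub]
    exact sub_mem d₁ d₂'
  refine RedData_val_lt_one T.R₁ hsub ?_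
  have e : (⟨_, hsub⟩ : T.R₁.O) = ⟨_, d₁⟩ - ⟨_, d₂'⟩ := Subtype.ext (map_sub _ _ _)
  rw [e, map_sub, ha₁, T.const_red _ d₂' d₂, ha₂, key, sub_self]

end Abs

section Mod

open Fermat.Agent.RED.TorsES Fermat.Agent.SSP Fermat.Agent.RIB Fermat.Agent.RIB.Key
open Fermat.Agent.RED.Cusp (Fb)

theorem val_eq_one_iff_not_lt {L : Type*} [Field L] (O : ValuationSubring L) {x : L}
    (hx : x ≠ 0) : O.valuation x = 1 ↔ ¬ O.valuation x < 1 ∧ ¬ O.valuation x⁻¹ < 1 := by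
  have h0 : O.valuation x ≠ 0 := (Valuation.ne_zero_iff _).2 hx
  rw [map_inv₀, not_lt, not_lt]
  constructor
  · intro h
    rw [h]
    simp
  · rintro ⟨h1, h2⟩
    exact le_antisymm ((one_le_inv₀ (zero_lt_iff.2 h0)).1 h2) h1

variable {M q : ℕ} [NeZero M] [hq : Fact q.Prime] (hqM : ¬ q ∣ M)
variable (A : ValuationSubring Kb) [CharP (ResidueField A) q] [IsAlgClosed (ResidueField A)]

local notation "kA" => ResidueField A
local notation "TT" => twoRed hqM (residue A) residue_surjective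
local notation "QQ" => algebraMap Kb (FN (M * q)) (q : Kb)

theorem val₁_const_lt_one_iff (e : Kb) :
    (TT).R₁.O.valuation (algebraMap Kb (FN (M * q)) e) < 1 ↔ A.valuation e < 1 := by
  rw [val_const_lt_iff, twoRed_A]

theorem val₂_const_lt_one_iff (e : Kb) :
    (TT).R₂.O.valuation (algebraMap Kb (FN (M * q)) e) < 1 ↔ A.valuation e < 1 := by
  rw [← const_lt_iff, val₁_const_lt_one_iff]

theorem val₁_const_eq_one_iff {e : Kb} (he : e ≠ 0) :
    (TT).R₁.O.valuation (algebraMap Kb (FN (M * q)) e) = 1 ↔ A.valuation e = 1 := by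
  have he' : algebraMap Kb (FN (M * q)) e ≠ 0 := by simpa using he
  rw [val_eq_one_iff_not_lt _ he', val_eq_one_iff_not_lt _ he, ← map_inv₀,
    val₁_const_lt_one_iff, val₁_const_lt_one_iff]

theorem val₂_const_eq_one_iff {e : Kb} (he : e ≠ 0) :
    (TT).R₂.O.valuation (algebraMap Kb (FN (M * q)) e) = 1 ↔ A.valuation e = 1 := by
  have he' : algebraMap Kb (FN (M * q)) e ≠ 0 := by simpa using he
  rw [val_eq_one_iff_not_lt _ he', val_eq_one_iff_not_lt _ he, ← map_inv₀,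
    val₂_const_lt_one_iff, val₂_const_lt_one_iff]

/-- the arithmetic of the valuations, for one component. -/
theorem val_scale_aux (O : ValuationSubring (FN (M * q)))
    (hO : ∀ {e : Kb}, e ≠ 0 → (O.valuation (algebraMap Kb (FN (M * q)) e) = 1 ↔ A.valuation e = 1))
    {p : ℕ} {f g0 B : FN (M * q)} {c c₁ : Kb} {n : ℤ} (hc0 : c ≠ 0) (hc₁ : c₁ ≠ 0)
    (hf : O.valuation f = 1) (hg : O.valuation g0 = O.valuation QQ ^ n)
    (hB : O.valuation (algebraMap Kb (FN (M * q)) c₁ * B) = 1)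
    (hc : f = g0 * B ^ p * algebraMap Kb (FN (M * q)) c ^ p) :
    A.valuation c₁ ^ p = A.valuation (q : Kb) ^ n * A.valuation c ^ p := by
  have hq0 : (q : Kb) ≠ 0 := p_ne_zero_Kb
  have hc₁' : algebraMap Kb (FN (M * q)) c₁ ≠ 0 := by simpa using hc₁
  have w : O.valuation (algebraMap Kb (FN (M * q)) c₁) ≠ 0 := (Valuation.ne_zero_iff _).2 hc₁'
  have e0 : (q : Kb) ^ n * c ^ p * (c₁ ^ p)⁻¹ ≠ 0 :=
    mul_ne_zero (mul_ne_zero (zpow_ne_zero _ hq0) (pow_ne_zero _ hc0))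
      (inv_ne_zero (pow_ne_zero _ hc₁))
  have hB' : O.valuation B = (O.valuation (algebraMap Kb (FN (M * q)) c₁))⁻¹ := by
    rw [map_mul] at hB
    exact eq_inv_of_mul_eq_one_right hB
  have h1 : O.valuation (algebraMap Kb (FN (M * q)) ((q : Kb) ^ n * c ^ p * (c₁ ^ p)⁻¹)) = 1 := by
    have e : algebraMap Kb (FN (M * q)) ((q : Kb) ^ n * c ^ p * (c₁ ^ p)⁻¹) =
        QQ ^ n * algebraMap Kb (FN (M * q)) c ^ p * (algebraMap Kb (FN (M * q)) c₁ ^ p)⁻¹ := by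
      simp only [map_mul, map_inv₀, map_pow, map_zpow₀]
    have e' : O.valuation f = O.valuation g0 * O.valuation B ^ p *
        O.valuation (algebraMap Kb (FN (M * q)) c) ^ p := by
      rw [hc]
      simp only [map_mul, map_pow]
    rw [hf] at e'
    rw [e, map_mul, map_mul, map_inv₀, map_pow, map_pow, map_zpow₀, ← hg, ← inv_pow, ← hB',
      mul_right_comm]
    exact e'.symm
  have h2 := (hO e0).1 h1
  rw [map_mul, map_mul, map_inv₀, map_pow, map_pow, map_zpow₀] at h2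
  have w' : A.valuation c₁ ^ p ≠ 0 := pow_ne_zero _ ((Valuation.ne_zero_iff _).2 hc₁)
  exact ((mul_inv_eq_one₀ w').1 h2).symm

/-- **[GR0-d1]** -/
theorem exists_gamma (h49 : 4 ∣ M ∨ 9 ∣ M) (hA : A.LiesOverPrime q) {p : ℕ} (hp : p ≠ 0)
    {x : JZero (M * q)} (hx : IsToric (TT) p x) {g0 : FN (M * q)} (hk : Kum p x g0)
    (hfix : ∀ τ ∈ A.inertiaSubgroupIn ℚ, gal (M * q) τ • g0 = g0) {n₁ n₂ : ℤ}
    (h₁ : (TT).R₁.O.valuation g0 = (TT).R₁.O.valuation QQ ^ n₁)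
    (h₂ : (TT).R₂.O.valuation g0 = (TT).R₂.O.valuation QQ ^ n₂) :
    ∃ γ : Kb, γ ≠ 0 ∧ A.valuation γ ^ p = A.valuation (q : Kb) ^ (n₁ - n₂) ∧
      ∀ τ ∈ A.inertiaSubgroupIn ℚ, A.valuation (τ γ / γ - 1) < 1 := by
  obtain ⟨-, 𝒩, -, -, -, -, -, -, -, -, hcompat, -⟩ := exists_nodalData_fixed hqM A h49 hA
  have hsx := RB.isSepParam_jF (M * q)
  have hsb := Cusp.isSepParam_jb M kA q hqM
  obtain ⟨D, f, hxD, hOne⟩ := hx.exists_isOne hsx
  obtain ⟨D0, hD0x, hD0⟩ := hk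
  have hq0 : (q : Kb) ≠ 0 := p_ne_zero_Kb
  -- the function `B`
  have hprin : Pic0.mk (D - D0) = 0 := by rw [TorsES.mk_sub', hD0x, ← hxD, sub_self]
  rw [TorsES.mk_eq_zero_iff] at hprin
  obtain ⟨B, hB0, hB⟩ := hprin
  have hB' : ∀ v : Place Kb (FN (M * q)),
      v.ord B = (D : Divisor Kb (FN (M * q))) v - (D0 : Divisor Kb (FN (M * q))) v := by
    intro v
    rw [← hB v]
    rfl
  have hred1 : (TT).R₁.red ⟨f, f.2.1⟩ = 1 := congrArg Prod.fst hOne.red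
  have hred2 : (TT).R₂.red ⟨f, f.2.2⟩ = 1 := congrArg Prod.snd hOne.red
  have vf₁ : (TT).R₁.O.valuation (f : FN (M * q)) = 1 :=
    RedData_val_eq_one _ f.2.1 (by rw [hred1]; exact one_ne_zero)
  have vf₂ : (TT).R₂.O.valuation (f : FN (M * q)) = 1 :=
    RedData_val_eq_one _ f.2.2 (by rw [hred2]; exact one_ne_zero)
  have hf0 : (f : FN (M * q)) ≠ 0 := by
    intro h0
    rw [h0, map_zero] at vf₁
    exact zero_ne_one vf₁
  obtain ⟨c, hc⟩ := S36.Kum.exists_eq_mul_pow_of_ord_eq (M * q) hp hf0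
    (mul_ne_zero hD0.1 (pow_ne_zero p hB0)) (fun P => by
      rw [P.ord_mul hD0.1 (pow_ne_zero p hB0), S24.Place.ord_pow, ← hD0.2 P, ← hOne.ord P, hB' P]
      ring)
  have hc0 : c ≠ 0 := by
    rintro rfl
    rw [map_zero, zero_pow hp, mul_zero] at hc
    exact hf0 hc
  obtain ⟨c₁, k₁, r₁⟩ := (TT).R₁.exists_scale B hB0
  obtain ⟨c₂, k₂, r₂⟩ := (TT).R₂.exists_scale B hB0
  have hc₁ : c₁ ≠ 0 := by
    rintro rfl
    apply r₁
    have : (⟨algebraMap Kb (FN (M * q)) 0 * B, k₁⟩ : (TT).R₁.O) = 0 := Subtype.ext (by simp)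
    rw [this, map_zero]
  have hc₂ : c₂ ≠ 0 := by
    rintro rfl
    apply r₂
    have : (⟨algebraMap Kb (FN (M * q)) 0 * B, k₂⟩ : (TT).R₂.O) = 0 := Subtype.ext (by simp)
    rw [this, map_zero]
  have e₁ := val_scale_aux A (TT).R₁.O (fun he => val₁_const_eq_one_iff hqM A he) hc0 hc₁ vf₁ h₁
    (RedData_val_eq_one _ k₁ r₁) hc
  have e₂ := val_scale_aux A (TT).R₂.O (fun he => val₂_const_eq_one_iff hqM A he) hc0 hc₂ vf₂ h₂
    (RedData_val_eq_one _ k₂ r₂) hc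
  have wq : A.valuation (q : Kb) ≠ 0 := (Valuation.ne_zero_iff _).2 hq0
  have wc : A.valuation c ^ p ≠ 0 := pow_ne_zero _ ((Valuation.ne_zero_iff _).2 hc0)
  refine ⟨c₁ / c₂, div_ne_zero hc₁ hc₂, ?_, fun τ hτ => ?_⟩
  · rw [map_div₀, div_pow, e₁, e₂, mul_div_mul_right _ _ wc, zpow_sub₀ wq]
  · have hD0fix : gal (M * q) τ • (D0 : Divisor Kb (FN (M * q))) = D0 :=
      smul_divisor_of_smul_eq hp (hfix τ hτ) (fun P => (hD0.2 P).symm)
    have key := scale_const_eq 𝒩 hsx hsb hp hOne (hcompat τ hτ) hD0fix hB' k₁ r₁ k₂ r₂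
    rw [baseAut_gal, baseAut_gal, val₁_const_lt_one_iff] at key
    have hτ₁ : τ c₁ ≠ 0 := by simpa using hc₁
    have hτ₂ : τ c₂ ≠ 0 := by simpa using hc₂
    have hu : A.valuation (c₁ * (τ c₁)⁻¹) = 1 := by
      have a1 := (hcompat τ hτ).unit c₁ hc₁
      have a2 := (hcompat τ hτ).unit c₁⁻¹ (inv_ne_zero hc₁)
      rw [baseAut_gal, twoRed_A, ← A.valuation_le_one_iff] at a1 a2
      rw [map_inv₀, inv_inv, mul_comm] at a2
      refine le_antisymm a2 ?_
      have e : c₁ * (τ c₁)⁻¹ = (τ c₁ * c₁⁻¹)⁻¹ := by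
        rw [mul_inv, inv_inv, mul_comm]
      rw [e, map_inv₀]
      exact (one_le_inv₀ (zero_lt_iff.2 ((Valuation.ne_zero_iff _).2
        (mul_ne_zero hτ₁ (inv_ne_zero hc₁))))).2 a1
    have e : τ (c₁ / c₂) / (c₁ / c₂) - 1 =
        -((c₁ * (τ c₁)⁻¹ - c₂ * (τ c₂)⁻¹) * (c₁ * (τ c₁)⁻¹)⁻¹) := by
      rw [map_div₀]
      field_simp
      ring
    rw [e, Valuation.map_neg, map_mul, map_inv₀, hu, inv_one, mul_one]
    exact key

/-- **[GR0] (1)-(9)** : the difference of the two valuations of an inertia-fixed Kummer function of a toric class is divisible by `p`. -/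
theorem dvd_sub_of_isToric (h49 : 4 ∣ M ∨ 9 ∣ M) (hA : A.LiesOverPrime q) {p : ℕ} (hp : p.Prime)
    (hpq : p ≠ q) {x : JZero (M * q)} (hx : IsToric (TT) p x) {g0 : FN (M * q)} (hk : Kum p x g0)
    (hfix : ∀ τ ∈ A.inertiaSubgroupIn ℚ, gal (M * q) τ • g0 = g0) {n₁ n₂ : ℤ}
    (h₁ : (TT).R₁.O.valuation g0 = (TT).R₁.O.valuation QQ ^ n₁)
    (h₂ : (TT).R₂.O.valuation g0 = (TT).R₂.O.valuation QQ ^ n₂) : (p : ℤ) ∣ n₁ - n₂ := by
  obtain ⟨γ, hγ, hv, hI⟩ := exists_gamma hqM A h49 hA hp.ne_zero hx hk hfix h₁ h₂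
  exact dvd_of_tame hq.out hA hp hpq hγ hv hI

end Mod

end Fermat.Agent.ML.Low
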