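import Fermat.Agent.ML.Low.Gr0.Rtau

/-!
# ML / LOWER(A) : `[GR0]` steps (2), (3), (10), (11) : a toric class has an inertia-fixed Kummer function whose two reductions are `p`-th powers

`x` an `SS`-toric class of level `M q` (`p D = div f`, `f` over `ℚbar`, `red f = (a₁ ^ p, a₂ ^ p)`).  Then `x` is fixed by the inertia group `I`
(`inertia_smul_of_isToric`) and it has an `I`-FIXED Kummer function `F`, a unit for both valuations, with `red F = (w₁ ^ p, w₂ ^ p)`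
(`exists_unit_kum`).
-/

set_option autoImplicit false
set_option linter.style.haveILetI false
set_option linter.unusedSectionVars false
set_option synthInstance.maxHeartbeats 400000

noncomputable section

open AlgebraicCurve ModularCurve IsLocalRing

namespace Fermat.Agent.ML.Low

open Fermat.Agent.RED hiding Kb
open Fermat.Agent.S24 Fermat.Agent.RED.TorsES Fermat.Agent.SS Fermat.Agent.SSP Fermat.Agent.HK
open Fermat.Agent.S40.HK Fermat.Agent.RIB Fermat.Agent.RIB.Key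
open Fermat.Agent.RED.Cusp (Fb)

variable {M q : ℕ} [NeZero M] [hq : Fact q.Prime] (hqM : ¬ q ∣ M)
variable (A : ValuationSubring Kb) [CharP (ResidueField A) q] [IsAlgClosed (ResidueField A)]

local notation "kA" => ResidueField A
local notation "TT" => twoRed hqM (residue A) residue_surjective
local notation "QQ" => algebraMap Kb (FN (M * q)) (q : Kb)

/-- a toric class is fixed by the inertia group. -/
theorem inertia_smul_of_isToric (h49 : 4 ∣ M ∨ 9 ∣ M) (hA : A.LiesOverPrime q) {p : ℕ}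
    (hp : p.Prime) (hpq : p ≠ q) {x : JZero (M * q)} (hx : IsToric (TT) p x) {τ : GQ}
    (hτ : τ ∈ A.inertiaSubgroupIn ℚ) : τ • x = x := by
  obtain ⟨-, 𝒩, -, -, -, -, -, -, -, -, hcompat, -⟩ := exists_nodalData_fixed hqM A h49 hA
  have hpk : ((p : ℕ) : kA) ≠ 0 := by
    intro h0
    rw [CharP.cast_eq_zero_iff kA q] at h0
    exact hpq ((Nat.prime_dvd_prime_iff_eq hq.out hp).1 h0).symm
  have hx' : IsToric (TT) (p ^ 1) x := by rwa [pow_one]
  have h := smul_eq_nsmul_of_isToric 𝒩 (RB.isSepParam_jF (M * q))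
    (Cusp.isSepParam_jb M kA q hqM) hp hpk 1 (hcompat τ hτ) 1 (fun ζ _ => by simp) hx'
  rwa [one_smul] at h

/-- **[GR0] (2), (3), (9), (10), (11)** -/
theorem exists_unit_kum (h49 : 4 ∣ M ∨ 9 ∣ M) (hA : A.LiesOverPrime q) {p : ℕ} (hp : p.Prime)
    (hpq : p ≠ q) {x : JZero (M * q)} (hx : IsToric (TT) p x) :
    ∃ (F : FN (M * q)) (w₁ w₂ : Fb kA M), Kum p x F ∧
      (∀ τ ∈ A.inertiaSubgroupIn ℚ, gal (M * q) τ • F = F) ∧ w₁ ≠ 0 ∧ w₂ ≠ 0 ∧
      ∃ (m₁ : F ∈ (TT).R₁.O) (m₂ : F ∈ (TT).R₂.O),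
        (TT).R₁.red ⟨F, m₁⟩ = w₁ ^ p ∧ (TT).R₂.red ⟨F, m₂⟩ = w₂ ^ p := by
  have hm : p ≠ 0 := hp.ne_zero
  have hQ0 : QQ ≠ 0 := QQ_ne_zero
  have hq0 : (q : Kb) ≠ 0 := p_ne_zero_Kb
  -- an inertia-fixed Kummer function
  obtain ⟨-, g0, n₁, n₂, hk, hfix, h₁, h₂, -⟩ := exists_gr hqM A h49 hA hm
    (S33.IsToric.nsmul_eq_zero hx) (fun τ hτ => inertia_smul_of_isToric hqM A h49 hA hp hpq hx hτ)
  have v₁ := val_eq_zpow_of_mul_inv _ hQ0 h₁
  have v₂ := val_eq_zpow_of_mul_inv _ hQ0 h₂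
  obtain ⟨k, hk0⟩ := dvd_sub_of_isToric hqM A h49 hA hp hpq hx hk hfix v₁ v₂
  obtain ⟨s, hs0, hsfix, hs₁, hs₂⟩ := exists_slope hqM A hA h49
  -- the normalisation
  set c : Kb := (q : Kb) ^ (-n₁) with hc
  have hc0 : c ≠ 0 := zpow_ne_zero _ hq0
  set u : FN (M * q) := s ^ k with hu
  have hu0 : u ≠ 0 := zpow_ne_zero _ hs0
  set F : FN (M * q) := algebraMap Kb (FN (M * q)) c * g0 * u ^ p with hF
  have hkF : Kum p x F := hk.const_mul_mul_pow hc0 hu0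
  have hcQ : algebraMap Kb (FN (M * q)) c = QQ ^ (-n₁) := by rw [hc, map_zpow₀]
  have w₁ : (TT).R₁.O.valuation QQ ≠ 0 := (Valuation.ne_zero_iff _).2 hQ0
  have w₂ : (TT).R₂.O.valuation QQ ≠ 0 := (Valuation.ne_zero_iff _).2 hQ0
  have hU : IsU hqM A F := by
    constructor
    · have e1 : (TT).R₁.O.valuation u = 1 := by rw [hu, map_zpow₀, hs₁, one_zpow]
      rw [hF, map_mul, map_mul, map_pow, e1, one_pow, mul_one, hcQ, map_zpow₀, v₁,
        ← zpow_add₀ w₁, neg_add_cancel, zpow_zero]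
    · have e1 : (TT).R₂.O.valuation u = (TT).R₂.O.valuation QQ ^ k := by
        rw [hu, map_zpow₀, hs₂]
      rw [hF, map_mul, map_mul, map_pow, e1, hcQ, map_zpow₀, v₂, ← zpow_add₀ w₂, ← zpow_natCast,
        ← zpow_mul, ← zpow_add₀ w₂]
      have : -n₁ + n₂ + k * (p : ℤ) = 0 := by linarith
      rw [this, zpow_zero]
  have hfixF : ∀ τ ∈ A.inertiaSubgroupIn ℚ, gal (M * q) τ • F = F := by
    have hs' : s ∈ ratH (M * q) (A.inertiaSubgroupIn ℚ) := hsfix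
    have hf' : g0 ∈ ratH (M * q) (A.inertiaSubgroupIn ℚ) := hfix
    have hmem : F ∈ ratH (M * q) (A.inertiaSubgroupIn ℚ) := by
      refine mul_mem (mul_mem (algebraMap_mem_ratH fun σ _ => ?_) hf')
        (pow_mem (zpow_mem hs' k) p)
      rw [hc, map_zpow₀, map_natCast]
    exact hmem
  -- comparison with the toric function
  obtain ⟨D, f, a₁, a₂, hxD, hord, ha₁, ha₂, hred⟩ := hx
  have hr₁ : (TT).R₁.red ⟨f, f.2.1⟩ = a₁ ^ p := congrArg Prod.fst hred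
  have hr₂ : (TT).R₂.red ⟨f, f.2.2⟩ = a₂ ^ p := congrArg Prod.snd hred
  have hUf : IsU hqM A (f : FN (M * q)) :=
    ⟨RedData_val_eq_one _ f.2.1 (by rw [hr₁]; exact pow_ne_zero _ ha₁),
      RedData_val_eq_one _ f.2.2 (by rw [hr₂]; exact pow_ne_zero _ ha₂)⟩
  have hf0 : (f : FN (M * q)) ≠ 0 := by
    intro h0
    have := hUf.1
    rw [h0, map_zero] at this
    exact zero_ne_one this
  have hkf : Kum p x (f : FN (M * q)) := ⟨D, hxD.symm, hf0, hord⟩
  have hk0' : Kum p (0 : JZero (M * q)) (F / f) := by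
    have := hkF.sub hkf
    rwa [sub_self] at this
  have hUq : IsU hqM A (F / f) :=
    ⟨by rw [map_div₀, hU.1, hUf.1, div_one], by rw [map_div₀, hU.2, hUf.2, div_one]⟩
  obtain ⟨R₁, R₂⟩ := rel_of_kum_zero' hqM A hA hm hk0' hUq
  obtain ⟨b₁, hb₁, e₁⟩ := exists_pow_eq_of_rel_zero hqM A hA hm R₁
  obtain ⟨b₂, hb₂, e₂⟩ := exists_pow_eq_of_rel_zero hqM A hA hm R₂
  have hFf : F = F / f * f := (div_mul_cancel₀ F hf0).symm
  have m₁ : F ∈ (TT).R₁.O := mem_of_val_le hU.1.le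
  have m₂ : F ∈ (TT).R₂.O := mem_of_val_le hU.2.le
  refine ⟨F, b₁ * a₁, b₂ * a₂, hkF, hfixF, mul_ne_zero hb₁ ha₁, mul_ne_zero hb₂ ha₂, m₁, m₂, ?_, ?_⟩
  · have h3 : rd₁ (TT) F = rd₁ (TT) (F / f) * rd₁ (TT) (f : FN (M * q)) := by
      conv_lhs => rw [hFf]
      exact rd_mul_of_val hUq.1 hUf.1
    rw [← rd_of_mem m₁, mul_pow, ← e₁, ← hr₁, ← rd_of_mem f.2.1]
    exact h3
  · have h3 : rd₂ (TT) F = rd₂ (TT) (F / f) * rd₂ (TT) (f : FN (M * q)) := by
      conv_lhs => rw [hFf]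
      exact rd_mul_of_val hUq.2 hUf.2
    rw [← rd_of_mem m₂, mul_pow, ← e₂, ← hr₂, ← rd_of_mem f.2.2]
    exact h3

end Fermat.Agent.ML.Low
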